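/-
S56 / GEC / (T1), core (helper1): additive invariants of finite `p`-torsion modules over a ring `R`.

* `PTors p T` : the additive group `T` is killed by `p` (class; inherited by sub/quotient/product).
* `AddInv R p` : an integer-valued invariant `f` of `R`-modules, invariant under `R`-linear
  isomorphisms and additive on `S ≤ T` (`f T = f S + f (T ⧸ S)`), both only for FINITE `p`-torsion `T`.
* `AddInv.add_of_exact`, `AddInv.prod`, `AddInv.eq_zero_of_subsingleton`.
* `AddInv.ker_pMul_eq_quot_range_pMul` : **`f(Q[p]) = f(Q/pQ)` for every finite `R`-module `Q`**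
  (induction on `|Q|` with `Q' = pQ`; no Jordan–Hölder).
* `AddInv.lattice` : for `u : A →ₗ[R] B` injective with `B` `p`-torsion-free and `B/uA`, `A/pA`, `B/pB`
  finite: **`f(A/pA) = f(B/pB)`** (`ker ū ≅ Q[p]`, `coker ū ≅ Q/pQ`, `Q = B/uA`).
-/
import Mathlib

set_option autoImplicit false
set_option linter.unusedSectionVars false
set_option linter.style.haveILetI false

namespace Fermat.Agent.S56.GEC.Induction

/-- The additive group `T` is killed by `p`. -/
class PTors (p : ℕ) (T : Type) [AddCommGroup T] : Prop where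
  nsmul_eq_zero : ∀ t : T, p • t = 0

section PTors

variable {R : Type} [Ring R] {p : ℕ} {T T' : Type} [AddCommGroup T] [Module R T]
  [AddCommGroup T'] [Module R T']

theorem PTors.of_injective [PTors p T'] (φ : T →+ T') (hφ : Function.Injective φ) : PTors p T :=
  ⟨fun t => hφ (by rw [map_nsmul, PTors.nsmul_eq_zero, map_zero])⟩

theorem PTors.of_surjective [PTors p T] (φ : T →+ T') (hφ : Function.Surjective φ) : PTors p T' :=
  ⟨fun t => by obtain ⟨s, rfl⟩ := hφ t; rw [← map_nsmul, PTors.nsmul_eq_zero, map_zero]⟩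

instance PTors.submodule [PTors p T] (S : Submodule R T) : PTors p S :=
  PTors.of_injective S.subtype.toAddMonoidHom S.subtype_injective

instance PTors.quotient [PTors p T] (S : Submodule R T) : PTors p (T ⧸ S) :=
  PTors.of_surjective S.mkQ.toAddMonoidHom S.mkQ_surjective

instance PTors.prod [PTors p T] [PTors p T'] : PTors p (T × T') :=
  ⟨fun t => Prod.ext (by simp [PTors.nsmul_eq_zero]) (by simp [PTors.nsmul_eq_zero])⟩

theorem PTors.of_linearEquiv [PTors p T] (e : T ≃ₗ[R] T') : PTors p T' :=
  PTors.of_surjective e.toLinearMap.toAddMonoidHom e.surjective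

instance finite_quotient [Finite T] (S : Submodule R T) : Finite (T ⧸ S) :=
  Finite.of_surjective _ S.mkQ_surjective

/-- Multiplication by the natural number `p`, as an `R`-linear endomorphism. -/
def pMul (R : Type) [Ring R] (p : ℕ) (T : Type) [AddCommGroup T] [Module R T] : T →ₗ[R] T where
  toFun t := p • t
  map_add' := smul_add p
  map_smul' r t := smul_comm p r t

@[simp] theorem pMul_apply (t : T) : pMul R p T t = p • t := rfl

theorem mem_ker_pMul {t : T} : t ∈ LinearMap.ker (pMul R p T) ↔ p • t = 0 := Iff.rfl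

theorem mem_range_pMul {t : T} : t ∈ LinearMap.range (pMul R p T) ↔ ∃ s : T, p • s = t := Iff.rfl

instance PTors.ker_pMul : PTors p (LinearMap.ker (pMul R p T)) :=
  ⟨fun t => Subtype.ext t.2⟩

instance PTors.quot_range_pMul : PTors p (T ⧸ LinearMap.range (pMul R p T)) :=
  ⟨fun t => by
    obtain ⟨s, rfl⟩ := Submodule.mkQ_surjective _ t
    rw [← map_nsmul]
    exact (Submodule.Quotient.mk_eq_zero _).2 ⟨s, rfl⟩⟩

end PTors

/-- An **additive invariant** of finite `p`-torsion `R`-modules. -/
structure AddInv (R : Type) [Ring R] (p : ℕ) where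
  /-- the invariant -/
  f : ∀ (T : Type) [AddCommGroup T] [Module R T], ℤ
  iso : ∀ {T T' : Type} [AddCommGroup T] [Module R T] [AddCommGroup T'] [Module R T']
    [Finite T] [PTors p T], (T ≃ₗ[R] T') → f T = f T'
  add : ∀ {T : Type} [AddCommGroup T] [Module R T] [Finite T] [PTors p T] (S : Submodule R T),
    f T = f S + f (T ⧸ S)

namespace AddInv

variable {R : Type} [Ring R] {p : ℕ} (F : AddInv R p)

section Basic

variable {T T' T'' : Type} [AddCommGroup T] [Module R T] [AddCommGroup T'] [Module R T']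
  [AddCommGroup T''] [Module R T'']

theorem eq_zero_of_subsingleton [Subsingleton T] : F.f T = 0 := by
  haveI : PTors p T := ⟨fun t => Subsingleton.elim _ _⟩
  have h := F.add (⊥ : Submodule R T)
  have e1 : T ≃ₗ[R] (⊥ : Submodule R T) := LinearEquiv.ofSubsingleton _ _
  have e2 : T ≃ₗ[R] (T ⧸ (⊥ : Submodule R T)) := LinearEquiv.ofSubsingleton _ _
  rw [← F.iso e1, ← F.iso e2] at h
  linarith

/-- Additivity on short exact sequences. -/
theorem add_of_exact [Finite T] [PTors p T] (i : T' →ₗ[R] T) (q : T →ₗ[R] T'')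
    (hi : Function.Injective i) (hq : Function.Surjective q) (hex : Function.Exact i q) :
    F.f T = F.f T' + F.f T'' := by
  have hker : LinearMap.ker q = LinearMap.range i := LinearMap.exact_iff.1 hex
  have e1 : T' ≃ₗ[R] LinearMap.range i := LinearEquiv.ofInjective i hi
  have e2 : (T ⧸ LinearMap.range i) ≃ₗ[R] T'' :=
    (Submodule.quotEquivOfEq _ _ hker.symm).trans (q.quotKerEquivOfSurjective hq)
  haveI : Finite T' := Finite.of_injective i hi
  haveI : PTors p T' := PTors.of_injective i.toAddMonoidHom hi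
  rw [F.add (LinearMap.range i), F.iso e1, F.iso e2]

theorem prod [Finite T] [PTors p T] [Finite T'] [PTors p T'] :
    F.f (T × T') = F.f T + F.f T' :=
  F.add_of_exact (LinearMap.inl R T T') (LinearMap.snd R T T') LinearMap.inl_injective
    LinearMap.snd_surjective (fun x => by
      constructor
      · intro h; exact ⟨x.1, Prod.ext rfl (by simpa using h.symm)⟩
      · rintro ⟨t, rfl⟩; rfl)

end Basic

/-! ### `f(Q[p]) = f(Q/pQ)` -/

section Filtration

/-- **`f(Q[p]) = f(Q/pQ)`** for every finite `R`-module `Q`. -/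
theorem ker_pMul_eq_quot_range_pMul (Q : Type) [AddCommGroup Q] [Module R Q] [Finite Q] :
    F.f (LinearMap.ker (pMul R p Q)) = F.f (Q ⧸ LinearMap.range (pMul R p Q)) := by
  induction' hn : Nat.card Q using Nat.strong_induction_on with n IH generalizing Q
  by_cases hinj : Function.Injective (pMul R p Q)
  · -- multiplication by `p` is bijective: both sides are trivial
    have hsurj : Function.Surjective (pMul R p Q) := Finite.surjective_of_injective hinj
    haveI : Subsingleton (LinearMap.ker (pMul R p Q)) := by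
      rw [LinearMap.ker_eq_bot.2 hinj]; infer_instance
    haveI : Subsingleton (Q ⧸ LinearMap.range (pMul R p Q)) := by
      rw [LinearMap.range_eq_top.2 hsurj]; infer_instance
    rw [F.eq_zero_of_subsingleton, F.eq_zero_of_subsingleton]
  · -- `Q' = pQ` is smaller
    set Q' := LinearMap.range (pMul R p Q) with hQ'
    have hcard : Nat.card Q' < Nat.card Q := by
      have hns : ¬ Function.Surjective (pMul R p Q) := fun h =>
        hinj (Finite.injective_iff_surjective.2 h)
      obtain ⟨x, hx⟩ := not_forall.1 hns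
      exact Finite.card_subtype_lt (p := fun y => y ∈ Q') (x := x) hx
    have IH' := IH (Nat.card Q') (hn ▸ hcard) Q' rfl
    -- the image `M` of `Q[p]` in `Q/pQ`
    set φ : LinearMap.ker (pMul R p Q) →ₗ[R] Q ⧸ Q' := Q'.mkQ ∘ₗ (LinearMap.ker (pMul R p Q)).subtype
      with hφ
    -- first exact sequence `0 → Q'[p] → Q[p] → M → 0`
    let i₁ : LinearMap.ker (pMul R p Q') →ₗ[R] LinearMap.ker (pMul R p Q) :=
      LinearMap.codRestrict _ (Q'.subtype ∘ₗ (LinearMap.ker (pMul R p Q')).subtype) (fun x => by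
        have hx : p • (x : Q') = 0 := x.2
        show p • ((x : Q') : Q) = 0
        rw [← Submodule.coe_smul_of_tower, hx]; rfl)
    have hi₁ : Function.Injective i₁ := fun x y h => by
      apply Subtype.ext; apply Subtype.ext
      exact congrArg (fun z : LinearMap.ker (pMul R p Q) => (z : Q)) h
    have hex₁ : Function.Exact i₁ φ.rangeRestrict := by
      intro x
      constructor
      · intro h
        have h' : φ x = 0 := congrArg Subtype.val h
        have hx : (x : Q) ∈ Q' := (Submodule.Quotient.mk_eq_zero _).1 h'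
        refine ⟨⟨⟨x, hx⟩, ?_⟩, Subtype.ext rfl⟩
        apply Subtype.ext
        exact x.2
      · rintro ⟨y, rfl⟩
        apply Subtype.ext
        exact (Submodule.Quotient.mk_eq_zero _).2 (y : Q').2
    have h1 := F.add_of_exact i₁ φ.rangeRestrict hi₁ φ.surjective_rangeRestrict hex₁
    -- second exact sequence `0 → M → Q/pQ → Q'/pQ' → 0`
    have hle : Q' ≤ (LinearMap.range (pMul R p Q')).comap (pMul R p Q).rangeRestrict := by
      rintro _ ⟨s, rfl⟩
      exact ⟨⟨p • s, s, rfl⟩, Subtype.ext rfl⟩
    let q₂ : (Q ⧸ Q') →ₗ[R] (Q' ⧸ LinearMap.range (pMul R p Q')) :=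
      Submodule.mapQ _ _ (pMul R p Q).rangeRestrict hle
    have hq₂ : Function.Surjective q₂ := by
      intro z
      obtain ⟨⟨_, s, rfl⟩, rfl⟩ := Submodule.mkQ_surjective _ z
      exact ⟨Q'.mkQ s, rfl⟩
    have hex₂ : Function.Exact (LinearMap.range φ).subtype q₂ := by
      intro z
      obtain ⟨x, rfl⟩ := Submodule.mkQ_surjective _ z
      constructor
      · intro h
        have h' : (pMul R p Q).rangeRestrict x ∈ LinearMap.range (pMul R p Q') :=
          (Submodule.Quotient.mk_eq_zero _).1 h
        obtain ⟨⟨_, s, rfl⟩, hs⟩ := h'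
        have hs' : p • (p • s) = p • x := congrArg Subtype.val hs
        have hk : x - p • s ∈ LinearMap.ker (pMul R p Q) := by
          show p • (x - p • s) = 0
          rw [smul_sub, hs', sub_self]
        refine ⟨⟨_, ⟨⟨x - p • s, hk⟩, rfl⟩⟩, ?_⟩
        show Q'.mkQ (x - p • s) = Q'.mkQ x
        rw [map_sub, sub_eq_self]
        exact (Submodule.Quotient.mk_eq_zero _).2 ⟨s, rfl⟩
      · rintro ⟨⟨_, ⟨y, rfl⟩⟩, hy⟩
        rw [← hy]
        show q₂ (Q'.mkQ (y : Q)) = 0
        apply (Submodule.Quotient.mk_eq_zero _).2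
        have : (pMul R p Q).rangeRestrict (y : Q) = 0 := Subtype.ext y.2
        rw [this]
        exact Submodule.zero_mem _
    have h2 := F.add_of_exact (LinearMap.range φ).subtype q₂ (Submodule.subtype_injective _)
      hq₂ hex₂
    rw [h1, h2, IH']
    ring

end Filtration

/-! ### The lattice step -/

section Lattice

variable {A B : Type} [AddCommGroup A] [Module R A] [AddCommGroup B] [Module R B]

/-- **The lattice step**: for an injective `R`-linear map `u : A → B` with finite cokernel, `B` without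
`p`-torsion, `f(A/pA) = f(B/pB)`. -/
theorem lattice (u : A →ₗ[R] B) (hu : Function.Injective u) (hB : ∀ b : B, p • b = 0 → b = 0)
    [Finite (B ⧸ LinearMap.range u)] [Finite (A ⧸ LinearMap.range (pMul R p A))]
    [Finite (B ⧸ LinearMap.range (pMul R p B))] :
    F.f (A ⧸ LinearMap.range (pMul R p A)) = F.f (B ⧸ LinearMap.range (pMul R p B)) := by
  set pA := LinearMap.range (pMul R p A) with hpA
  set pB := LinearMap.range (pMul R p B) with hpB
  set Q := B ⧸ LinearMap.range u with hQ
  have hle : pA ≤ pB.comap u := by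
    rintro _ ⟨a, rfl⟩
    exact ⟨u a, by simp⟩
  set ubar : (A ⧸ pA) →ₗ[R] (B ⧸ pB) := Submodule.mapQ pA pB u hle with hubar
  -- `f(A/pA) = f(ker ū) + f(range ū)`
  have h1 : F.f (A ⧸ pA) = F.f (LinearMap.ker ubar) + F.f (LinearMap.range ubar) :=
    F.add_of_exact (LinearMap.ker ubar).subtype ubar.rangeRestrict (Submodule.subtype_injective _)
      ubar.surjective_rangeRestrict (fun x => by
        constructor
        · intro h
          exact ⟨⟨x, congrArg Subtype.val h⟩, rfl⟩
        · rintro ⟨y, rfl⟩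
          exact Subtype.ext y.2)
  -- `f(B/pB) = f(range ū) + f(Q/pQ)`
  have hle2 : pB ≤ (LinearMap.range (pMul R p Q)).comap (LinearMap.range u).mkQ := by
    rintro _ ⟨b, rfl⟩
    exact ⟨(LinearMap.range u).mkQ b, by simp⟩
  set q₂ : (B ⧸ pB) →ₗ[R] (Q ⧸ LinearMap.range (pMul R p Q)) :=
    Submodule.mapQ pB _ (LinearMap.range u).mkQ hle2 with hq₂
  have hq₂s : Function.Surjective q₂ := by
    intro z
    obtain ⟨y, rfl⟩ := Submodule.mkQ_surjective _ z
    obtain ⟨b, rfl⟩ := Submodule.mkQ_surjective _ y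
    exact ⟨pB.mkQ b, rfl⟩
  have hex₂ : Function.Exact (LinearMap.range ubar).subtype q₂ := by
    intro z
    obtain ⟨b, rfl⟩ := Submodule.mkQ_surjective _ z
    constructor
    · intro h
      have h' : (LinearMap.range u).mkQ b ∈ LinearMap.range (pMul R p Q) :=
        (Submodule.Quotient.mk_eq_zero _).1 h
      obtain ⟨y, hy⟩ := h'
      obtain ⟨b', rfl⟩ := Submodule.mkQ_surjective _ y
      have h3 : b - p • b' ∈ LinearMap.range u := by
        rw [← Submodule.Quotient.mk_eq_zero, Submodule.Quotient.mk_sub, sub_eq_zero]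
        rw [Submodule.Quotient.mk_smul]
        exact hy.symm
      obtain ⟨a, ha⟩ := h3
      refine ⟨⟨_, ⟨pA.mkQ a, rfl⟩⟩, ?_⟩
      show pB.mkQ (u a) = pB.mkQ b
      rw [ha, map_sub, sub_eq_self]
      exact (Submodule.Quotient.mk_eq_zero _).2 ⟨b', rfl⟩
    · rintro ⟨⟨_, ⟨y, rfl⟩⟩, hy⟩
      rw [← hy]
      obtain ⟨a, rfl⟩ := Submodule.mkQ_surjective _ y
      show q₂ (pB.mkQ (u a)) = 0
      apply (Submodule.Quotient.mk_eq_zero _).2
      have : (LinearMap.range u).mkQ (u a) = 0 := (Submodule.Quotient.mk_eq_zero _).2 ⟨a, rfl⟩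
      rw [this]
      exact Submodule.zero_mem _
  have h2 := F.add_of_exact (LinearMap.range ubar).subtype q₂ (Submodule.subtype_injective _)
    hq₂s hex₂
  -- `ker ū ≅ Q[p]` through the pull-back `P = {(a, b) | u a = p b}`
  set P : Submodule R (A × B) :=
    LinearMap.ker (u ∘ₗ LinearMap.fst R A B - pMul R p B ∘ₗ LinearMap.snd R A B) with hP
  have hPmem : ∀ x : A × B, x ∈ P ↔ u x.1 = p • x.2 := fun x => by
    rw [hP, LinearMap.mem_ker]
    simp [sub_eq_zero]
  let α : P →ₗ[R] (A ⧸ pA) := pA.mkQ ∘ₗ LinearMap.fst R A B ∘ₗ P.subtype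
  let β : P →ₗ[R] Q := (LinearMap.range u).mkQ ∘ₗ LinearMap.snd R A B ∘ₗ P.subtype
  have hαr : LinearMap.range α = LinearMap.ker ubar := by
    ext z
    obtain ⟨a, rfl⟩ := Submodule.mkQ_surjective _ z
    constructor
    · rintro ⟨x, hx⟩
      rw [← hx, LinearMap.mem_ker]
      show pB.mkQ (u (x : A × B).1) = 0
      rw [(hPmem _).1 x.2]
      exact (Submodule.Quotient.mk_eq_zero _).2 ⟨_, rfl⟩
    · intro h
      have h' : u a ∈ pB := (Submodule.Quotient.mk_eq_zero _).1 (LinearMap.mem_ker.1 h)
      obtain ⟨b, hb⟩ := h'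
      exact ⟨⟨(a, b), (hPmem _).2 hb.symm⟩, rfl⟩
  have hβr : LinearMap.range β = LinearMap.ker (pMul R p Q) := by
    ext z
    obtain ⟨b, rfl⟩ := Submodule.mkQ_surjective _ z
    constructor
    · rintro ⟨x, hx⟩
      rw [← hx, LinearMap.mem_ker]
      show p • (LinearMap.range u).mkQ (x : A × B).2 = 0
      rw [← map_nsmul, ← (hPmem _).1 x.2]
      exact (Submodule.Quotient.mk_eq_zero _).2 ⟨_, rfl⟩
    · intro h
      have h' : p • b ∈ LinearMap.range u := by
        rw [← Submodule.Quotient.mk_eq_zero, Submodule.Quotient.mk_smul]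
        exact h
      obtain ⟨a, ha⟩ := h'
      exact ⟨⟨(a, b), (hPmem _).2 ha⟩, rfl⟩
  have hker : LinearMap.ker α = LinearMap.ker β := by
    ext x
    rw [LinearMap.mem_ker, LinearMap.mem_ker]
    have hx := (hPmem _).1 x.2
    constructor
    · intro h
      have h' : (x : A × B).1 ∈ pA := (Submodule.Quotient.mk_eq_zero _).1 h
      obtain ⟨a₀, ha₀⟩ := h'
      apply (Submodule.Quotient.mk_eq_zero _).2
      refine ⟨a₀, ?_⟩
      have : p • (u a₀ - (x : A × B).2) = 0 := by
        rw [smul_sub, ← hx, ← ha₀]; simp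
      exact sub_eq_zero.1 (hB _ this)
    · intro h
      have h' : (x : A × B).2 ∈ LinearMap.range u := (Submodule.Quotient.mk_eq_zero _).1 h
      obtain ⟨a₀, ha₀⟩ := h'
      apply (Submodule.Quotient.mk_eq_zero _).2
      refine ⟨a₀, ?_⟩
      apply hu
      show u (p • a₀) = u (x : A × B).1
      rw [hx, ← ha₀, map_nsmul]
  have e : LinearMap.ker ubar ≃ₗ[R] LinearMap.ker (pMul R p Q) :=
    (LinearEquiv.ofEq _ _ hαr.symm).trans
      ((α.quotKerEquivRange.symm.trans (Submodule.quotEquivOfEq _ _ hker)).trans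
        (β.quotKerEquivRange.trans (LinearEquiv.ofEq _ _ hβr)))
  rw [h1, h2, F.iso e, F.ker_pMul_eq_quot_range_pMul Q]
  ring

end Lattice

end AddInv

end Fermat.Agent.S56.GEC.Induction
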