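/-
S56 / GEC / (T1), core, part 2 (helper1): finite products and nilpotent filtrations.

* `AddInv.pi` : `f (Π i, T i) = ∑ i, f (T i)` over a `Fintype`.
* `AddInv.nilpotent_filtration` : for `y : T →ₗ[R] T` with `y ^ m = 0`,
  `f T = ∑ i < m, f (y^i T / y^(i+1) T)`.
* `AddInv.eq_mul_of_card` : if moreover `T / yT ≃ E` and `|T| = |E|^m` then all the surjections
  `y^i : T / yT → y^i T / y^(i+1) T` are bijective BY COUNTING and `f T = m * f E`.
-/
import Mathlib
import Fermat.Agent.S56.GEC.Induction.AddInv

set_option autoImplicit false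
set_option linter.unusedSectionVars false
set_option linter.style.haveILetI false

namespace Fermat.Agent.S56.GEC.Induction

open scoped BigOperators

instance PTors.pi {p : ℕ} {ι : Type} (T : ι → Type) [∀ i, AddCommGroup (T i)]
    [∀ i, PTors p (T i)] : PTors p (∀ i, T i) :=
  ⟨fun t => funext fun i => by rw [Pi.smul_apply, PTors.nsmul_eq_zero]; rfl⟩

namespace AddInv

variable {R : Type} [Ring R] {p : ℕ} (F : AddInv R p)

/-! ### Finite products -/

section Pi

variable {ι : Type} (T : ι → Type) [∀ i, AddCommGroup (T i)] [∀ i, Module R (T i)]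

/-- The tuples supported on `s`. -/
def suppSub (s : Finset ι) : Submodule R (∀ i, T i) where
  carrier := {x | ∀ i, i ∉ s → x i = 0}
  add_mem' := fun {x y} hx hy i hi => by rw [Pi.add_apply, hx i hi, hy i hi, add_zero]
  zero_mem' := fun _ _ => rfl
  smul_mem' := fun r x hx i hi => by rw [Pi.smul_apply, hx i hi, smul_zero]

theorem mem_suppSub {s : Finset ι} {x : ∀ i, T i} :
    x ∈ suppSub (R := R) T s ↔ ∀ i, i ∉ s → x i = 0 := Iff.rfl

variable [Fintype ι] [∀ i, Finite (T i)] [∀ i, PTors p (T i)]

theorem f_suppSub (s : Finset ι) : F.f (suppSub (R := R) T s) = ∑ i ∈ s, F.f (T i) := by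
  classical
  induction s using Finset.induction_on with
  | empty =>
    haveI : Subsingleton (suppSub (R := R) T ∅) :=
      ⟨fun x y => Subtype.ext (funext fun i => by
        rw [x.2 i (Finset.notMem_empty i), y.2 i (Finset.notMem_empty i)])⟩
    rw [F.eq_zero_of_subsingleton, Finset.sum_empty]
  | insert a s ha IH =>
    have hle : suppSub (R := R) T s ≤ suppSub (R := R) T (insert a s) := fun x hx i hi =>
      hx i fun h => hi (Finset.mem_insert_of_mem h)
    let q : suppSub (R := R) T (insert a s) →ₗ[R] T a :=
      (LinearMap.proj a).comp (suppSub (R := R) T (insert a s)).subtype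
    have hq : Function.Surjective q := fun t =>
      ⟨⟨Pi.single a t, fun i hi => by
        rw [Pi.single_eq_of_ne]
        rintro rfl
        exact hi (Finset.mem_insert_self _ _)⟩, by simp [q]⟩
    have hex : Function.Exact (Submodule.inclusion hle) q := by
      intro x
      constructor
      · intro h
        refine ⟨⟨x, fun i hi => ?_⟩, Subtype.ext rfl⟩
        by_cases hia : i = a
        · subst hia; exact h
        · exact x.2 i fun h' => (Finset.mem_insert.1 h').elim hia hi
      · rintro ⟨y, rfl⟩
        exact y.2 a ha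
    rw [F.add_of_exact (Submodule.inclusion hle) q (Submodule.inclusion_injective hle) hq hex, IH,
      Finset.sum_insert ha, add_comm]

/-- **Additivity over finite products.** -/
theorem pi : F.f (∀ i, T i) = ∑ i, F.f (T i) := by
  have htop : suppSub (R := R) T Finset.univ = ⊤ :=
    eq_top_iff.2 fun x _ i hi => (hi (Finset.mem_univ i)).elim
  rw [← f_suppSub F T Finset.univ]
  exact (F.iso (LinearEquiv.ofTop _ htop).symm)

end Pi

/-! ### Nilpotent filtrations -/

section Nilpotent

variable {T : Type} [AddCommGroup T] [Module R T] (y : T →ₗ[R] T)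

/-- The `i`-th graded piece `y^i T / y^(i+1) T` of the `y`-adic filtration. -/
abbrev gr (i : ℕ) : Type :=
  LinearMap.range (y ^ i) ⧸ (LinearMap.range (y ^ (i + 1))).comap (LinearMap.range (y ^ i)).subtype

theorem range_pow_succ_le (i : ℕ) : LinearMap.range (y ^ (i + 1)) ≤ LinearMap.range (y ^ i) := by
  rintro _ ⟨t, rfl⟩
  exact ⟨y t, by rw [pow_succ]; rfl⟩

variable [Finite T] [PTors p T]

theorem f_eq_range_pow_add (k : ℕ) :
    F.f T = F.f (LinearMap.range (y ^ k)) + ∑ i ∈ Finset.range k, F.f (gr y i) := by
  induction k with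
  | zero =>
    rw [Finset.range_zero, Finset.sum_empty, add_zero]
    have h : LinearMap.range (y ^ 0) = ⊤ := by rw [pow_zero]; exact LinearMap.range_id
    exact F.iso (LinearEquiv.ofTop _ h).symm
  | succ k IH =>
    rw [IH, Finset.sum_range_succ, F.add ((LinearMap.range (y ^ (k + 1))).comap
      (LinearMap.range (y ^ k)).subtype),
      F.iso (Submodule.comapSubtypeEquivOfLe (range_pow_succ_le y k))]
    ring

/-- **The `y`-adic filtration** of a module on which `y` is nilpotent. -/
theorem nilpotent_filtration (m : ℕ) (hy : y ^ m = 0) :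
    F.f T = ∑ i ∈ Finset.range m, F.f (gr y i) := by
  rw [F.f_eq_range_pow_add y m]
  haveI : Subsingleton (LinearMap.range (y ^ m)) := by
    rw [hy, LinearMap.range_zero]; infer_instance
  rw [F.eq_zero_of_subsingleton, zero_add]

/-- The surjection `T / yT → y^i T / y^(i+1) T` induced by `y^i`. -/
def grMap (i : ℕ) : (T ⧸ LinearMap.range y) →ₗ[R] gr y i :=
  Submodule.mapQ _ _ (y ^ i).rangeRestrict (by
    rintro _ ⟨t, rfl⟩
    show ((y ^ i).rangeRestrict (y t) : T) ∈ LinearMap.range (y ^ (i + 1))
    exact ⟨t, by rw [pow_succ]; rfl⟩)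

theorem grMap_surjective (i : ℕ) : Function.Surjective (grMap y i) := by
  intro z
  obtain ⟨⟨_, t, rfl⟩, rfl⟩ := Submodule.mkQ_surjective _ z
  exact ⟨Submodule.Quotient.mk t, rfl⟩

theorem card_range_pow (k : ℕ) :
    Nat.card (LinearMap.range (y ^ k)) =
      Nat.card (LinearMap.range (y ^ (k + 1))) * Nat.card (gr y k) := by
  rw [Submodule.card_eq_card_quotient_mul_card ((LinearMap.range (y ^ (k + 1))).comap
    (LinearMap.range (y ^ k)).subtype), mul_comm,
    Nat.card_congr (Submodule.comapSubtypeEquivOfLe (range_pow_succ_le y k)).toEquiv, mul_comm]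

/-- **Counting**: if `y ^ m = 0`, `T / yT ≃ E` and `|T| = |E| ^ m`, then `f T = m * f E`. -/
theorem eq_mul_of_card {E : Type} [AddCommGroup E] [Module R E] (m : ℕ) (hy : y ^ m = 0)
    (e : (T ⧸ LinearMap.range y) ≃ₗ[R] E) (hcard : Nat.card T = Nat.card E ^ m) :
    F.f T = m * F.f E := by
  haveI : Finite E := Finite.of_equiv _ e.toEquiv
  set c : ℕ → ℕ := fun k => Nat.card (LinearMap.range (y ^ k)) with hc
  set N := Nat.card E with hN
  have hNpos : 0 < N := Nat.card_pos
  have hgr : ∀ i, Nat.card (gr y i) ≤ N := fun i => by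
    rw [hN, ← Nat.card_congr e.toEquiv]
    exact Nat.card_le_card_of_surjective _ (grMap_surjective y i)
  have hstep : ∀ k, c k = c (k + 1) * Nat.card (gr y k) := fun k => card_range_pow y k
  have hcm : c m = 1 := by
    show Nat.card (LinearMap.range (y ^ m)) = 1
    rw [hy, LinearMap.range_zero]
    exact Nat.card_unique
  have hc0 : c 0 = N ^ m := by
    show Nat.card (LinearMap.range (y ^ 0)) = N ^ m
    rw [← hcard, pow_zero]
    exact Nat.card_congr (LinearEquiv.ofTop _ LinearMap.range_id).toEquiv
  -- upper bounds `c k ≤ N ^ (m - k)`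
  have hub : ∀ j, j ≤ m → c (m - j) ≤ N ^ j := by
    intro j
    induction j with
    | zero => intro _; rw [Nat.sub_zero, hcm, pow_zero]
    | succ j IH =>
      intro hj
      have h1 : m - (j + 1) + 1 = m - j := by omega
      rw [hstep (m - (j + 1)), h1, pow_succ]
      exact Nat.mul_le_mul (IH (by omega)) (hgr _)
  -- equalities
  have heq : ∀ k, k ≤ m → c k = N ^ (m - k) := by
    intro k
    induction k with
    | zero => intro _; rw [hc0, Nat.sub_zero]
    | succ k IH =>
      intro hk
      have h1 := IH (by omega)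
      rw [hstep k] at h1
      have h2 : c (k + 1) ≤ N ^ (m - (k + 1)) := by
        have := hub (m - (k + 1)) (by omega)
        rwa [show m - (m - (k + 1)) = k + 1 by omega] at this
      have h3 : N ^ (m - k) = N ^ (m - (k + 1)) * N := by
        rw [← pow_succ]; congr 1; omega
      rw [h3] at h1
      by_contra hne
      have hlt : c (k + 1) < N ^ (m - (k + 1)) := lt_of_le_of_ne h2 hne
      have : c (k + 1) * Nat.card (gr y k) < N ^ (m - (k + 1)) * N :=
        Nat.mul_lt_mul_of_lt_of_le hlt (hgr k) hNpos
      omega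
  have hgreq : ∀ i, i < m → Nat.card (gr y i) = N := by
    intro i hi
    have h1 := heq i hi.le
    have h2 := heq (i + 1) hi
    rw [hstep i, h2] at h1
    have h3 : N ^ (m - i) = N ^ (m - (i + 1)) * N := by
      rw [← pow_succ]; congr 1; omega
    rw [h3] at h1
    exact Nat.eq_of_mul_eq_mul_left (pow_pos hNpos _) h1
  -- hence the graded pieces are all isomorphic to `E`
  have hiso : ∀ i, i < m → F.f (gr y i) = F.f E := by
    intro i hi
    have hbij : Function.Bijective (grMap y i) := by
      refine (Nat.bijective_iff_surjective_and_card _).2 ⟨grMap_surjective y i, ?_⟩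
      rw [hgreq i hi, hN, Nat.card_congr e.toEquiv]
    rw [← F.iso (LinearEquiv.ofBijective (grMap y i) hbij), F.iso e]
  rw [F.nilpotent_filtration y m hy, Finset.sum_congr rfl fun i hi => hiso i (Finset.mem_range.1 hi),
    Finset.sum_const, Finset.card_range, nsmul_eq_mul]

end Nilpotent

end AddInv

end Fermat.Agent.S56.GEC.Induction
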