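/-
S56 / GEC / (T1), group layer, part 1 (helper1): permutation modules over `ℤ[G]`.

`R₀ = MonoidAlgebra ℤ G`.  For a `G`-set `X` and an abelian group `M`:
* `permRep G M X : Representation ℤ G (X →₀ M)`, `g • single x m = single (g • x) m`;
* `PermZ G X = ℤ[X]` and `PermP G X p = 𝔽_p[X]` as `R₀`-modules (`asModule`), `coeffFn` the underlying
  finitely supported function;
* `permMap` (functoriality in equivariant maps), `permCongr` (equivariant bijections);
* `redEquiv : ℤ[X] / p ℤ[X] ≃ₗ[R₀] 𝔽_p[X]`; `ℤ[X]` has no `p`-torsion; `𝔽_p[X]` is finite of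
  cardinality `p ^ |X|`;
* `sigmaEquiv : M[Σ i, X i] ≃ₗ[R₀] Π i, M[X i]`.
-/
import Mathlib
import Fermat.Agent.S56.GEC.Induction.AddInvMore

set_option autoImplicit false
set_option linter.unusedSectionVars false
set_option linter.style.haveILetI false

noncomputable section

namespace Fermat.Agent.S56.GEC.Induction

open Representation

/-! ### From intertwining maps to `ℤ[G]`-linear maps -/

section AsModule

variable {G : Type} [Group G] {V W : Type} [AddCommGroup V] [AddCommGroup W]
  {ρ : Representation ℤ G V} {σ : Representation ℤ G W}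

/-- A `ℤ`-linear map commuting with the actions, as a `ℤ[G]`-linear map. -/
def asModuleMap (f : V →ₗ[ℤ] W) (hf : ∀ g v, f (ρ g v) = σ g (f v)) :
    ρ.asModule →ₗ[MonoidAlgebra ℤ G] σ.asModule :=
  IntertwiningMap.equivLinearMapAsModule ρ σ (f.intertwiningMap_of_isIntertwiningMap ρ σ hf)

theorem asModuleMap_apply (f : V →ₗ[ℤ] W) (hf : ∀ g v, f (ρ g v) = σ g (f v)) (v : ρ.asModule) :
    σ.asModuleEquiv (asModuleMap f hf v) = f (ρ.asModuleEquiv v) := rfl

/-- A `ℤ`-linear equivalence commuting with the actions, as a `ℤ[G]`-linear equivalence. -/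
def asModuleEquiv' (e : V ≃ₗ[ℤ] W) (he : ∀ g v, e (ρ g v) = σ g (e v)) :
    ρ.asModule ≃ₗ[MonoidAlgebra ℤ G] σ.asModule :=
  LinearEquiv.ofBijective (asModuleMap e.toLinearMap he) e.bijective

theorem asModuleEquiv'_apply (e : V ≃ₗ[ℤ] W) (he : ∀ g v, e (ρ g v) = σ g (e v))
    (v : ρ.asModule) : σ.asModuleEquiv (asModuleEquiv' e he v) = e (ρ.asModuleEquiv v) := rfl

/-- The action of a group element on `asModule`. -/
theorem single_smul_asModule (g : G) (v : ρ.asModule) :
    ρ.asModuleEquiv (MonoidAlgebra.single g (1 : ℤ) • v) = ρ g (ρ.asModuleEquiv v) := by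
  rw [Representation.single_smul, one_smul]; rfl

/-- To check `ℤ[G]`-linearity of an additive map it suffices to check it on group elements. -/
theorem map_smul_of_single {T T' : Type} [AddCommGroup T] [Module (MonoidAlgebra ℤ G) T]
    [AddCommGroup T'] [Module (MonoidAlgebra ℤ G) T'] (f : T →+ T')
    (hf : ∀ (g : G) (t : T), f (MonoidAlgebra.single g (1 : ℤ) • t) =
      MonoidAlgebra.single g (1 : ℤ) • f t) (r : MonoidAlgebra ℤ G) (t : T) :
    f (r • t) = r • f t := by
  induction r using MonoidAlgebra.induction_linear with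
  | zero => rw [zero_smul, zero_smul, map_zero]
  | add a b ha hb => rw [add_smul, add_smul, map_add, ha, hb]
  | single g n =>
    have h : (MonoidAlgebra.single g n : MonoidAlgebra ℤ G) = n • MonoidAlgebra.single g (1 : ℤ) := by
      rw [MonoidAlgebra.smul_single, smul_eq_mul, mul_one]
    rw [h, smul_assoc, smul_assoc, map_zsmul, hf]

end AsModule

/-! ### Permutation representations -/

section Perm

variable (G : Type) [Group G] (M : Type) [AddCommGroup M] (X : Type) [MulAction G X]

/-- The permutation representation of `G` on `X →₀ M`, over `ℤ`. -/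
def permRep : Representation ℤ G (X →₀ M) where
  toFun g := Finsupp.lmapDomain M ℤ (g • ·)
  map_one' := by
    ext x m : 2
    simp
  map_mul' g h := by
    ext x m : 2
    simp [mul_smul]

variable {G M X}

@[simp] theorem permRep_single (g : G) (x : X) (m : M) :
    permRep G M X g (Finsupp.single x m) = Finsupp.single (g • x) m := by
  simp [permRep]

theorem permRep_apply (g : G) (v : X →₀ M) : permRep G M X g v = Finsupp.mapDomain (g • ·) v := rfl

theorem permRep_apply_apply (g : G) (v : X →₀ M) (x : X) : permRep G M X g v (g • x) = v x := by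
  rw [permRep_apply, Finsupp.mapDomain_apply (MulAction.injective g)]

/-- The underlying finitely supported function of an element of a permutation module. -/
def coeffFn (v : (permRep G M X).asModule) : X →₀ M := v

theorem coeffFn_injective : Function.Injective (coeffFn : (permRep G M X).asModule → X →₀ M) :=
  fun _ _ h => h

@[simp] theorem coeffFn_add (v w : (permRep G M X).asModule) :
    coeffFn (v + w) = coeffFn v + coeffFn w := rfl

@[simp] theorem coeffFn_zero : coeffFn (0 : (permRep G M X).asModule) = 0 := rfl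

@[simp] theorem coeffFn_nsmul (n : ℕ) (v : (permRep G M X).asModule) :
    coeffFn (n • v) = n • coeffFn v := rfl

theorem coeffFn_single_smul (g : G) (v : (permRep G M X).asModule) :
    coeffFn (MonoidAlgebra.single g (1 : ℤ) • v) = permRep G M X g (coeffFn v) :=
  single_smul_asModule g v

variable (G X)

/-- `ℤ[X]` as a `ℤ[G]`-module. -/
abbrev PermZ : Type := (permRep G ℤ X).asModule

/-- `𝔽_p[X]` as a `ℤ[G]`-module. -/
abbrev PermP (p : ℕ) : Type := (permRep G (ZMod p) X).asModule

variable {G X}

section Functorial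

variable {Y : Type} [MulAction G Y]

/-- Functoriality of permutation modules in equivariant maps. -/
def permMap (M : Type) [AddCommGroup M] (φ : X → Y) (hφ : ∀ (g : G) x, φ (g • x) = g • φ x) :
    (permRep G M X).asModule →ₗ[MonoidAlgebra ℤ G] (permRep G M Y).asModule :=
  asModuleMap (Finsupp.lmapDomain M ℤ φ) (fun g v => by
    rw [permRep_apply, permRep_apply]
    show Finsupp.mapDomain φ (Finsupp.mapDomain _ v) = Finsupp.mapDomain _ (Finsupp.mapDomain φ v)
    rw [← Finsupp.mapDomain_comp, ← Finsupp.mapDomain_comp]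
    congr 1
    funext x
    exact hφ g x)

theorem coeffFn_permMap (M : Type) [AddCommGroup M] (φ : X → Y)
    (hφ : ∀ (g : G) x, φ (g • x) = g • φ x) (v : (permRep G M X).asModule) :
    coeffFn (permMap M φ hφ v) = Finsupp.mapDomain φ (coeffFn v) := rfl

theorem permMap_surjective (M : Type) [AddCommGroup M] (φ : X → Y)
    (hφ : ∀ (g : G) x, φ (g • x) = g • φ x) (hs : Function.Surjective φ) :
    Function.Surjective (permMap (G := G) M φ hφ) :=
  Finsupp.mapDomain_surjective hs

/-- Equivariant bijections give isomorphisms of permutation modules. -/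
def permCongr (M : Type) [AddCommGroup M] (e : X ≃ Y)
    (he : ∀ (g : G) x, e (g • x) = g • e x) :
    (permRep G M X).asModule ≃ₗ[MonoidAlgebra ℤ G] (permRep G M Y).asModule :=
  LinearEquiv.ofBijective (permMap M e he)
    ⟨Finsupp.mapDomain_injective e.injective, Finsupp.mapDomain_surjective e.surjective⟩

theorem coeffFn_permCongr (M : Type) [AddCommGroup M] (e : X ≃ Y)
    (he : ∀ (g : G) x, e (g • x) = g • e x) (v : (permRep G M X).asModule) :
    coeffFn (permCongr M e he v) = Finsupp.mapDomain e (coeffFn v) := rfl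

end Functorial

/-! ### Reduction modulo `p` -/

section Red

variable (G X) (p : ℕ)

/-- Reduction of the coefficients modulo `p`. -/
def red : PermZ G X →ₗ[MonoidAlgebra ℤ G] PermP G X p :=
  asModuleMap (Finsupp.mapRange.linearMap (Int.castAddHom (ZMod p)).toIntLinearMap) (fun g v => by
    induction v using Finsupp.induction_linear with
    | zero => simp
    | add a b ha hb => rw [map_add, map_add, ha, hb, map_add, map_add]
    | single x n => simp)

theorem coeffFn_red (v : PermZ G X) (x : X) :
    coeffFn (red G X p v) x = ((coeffFn v x : ℤ) : ZMod p) := rfl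

theorem red_surjective : Function.Surjective (red G X p) := by
  intro w
  refine ⟨(Finsupp.mapRange (fun a : ZMod p => (a.cast : ℤ)) (by simp) (coeffFn w) : X →₀ ℤ), ?_⟩
  apply coeffFn_injective
  apply Finsupp.ext
  intro x
  rw [coeffFn_red]
  show (((Finsupp.mapRange (fun a : ZMod p => (a.cast : ℤ)) _ (coeffFn w)) x : ℤ) : ZMod p) = _
  rw [Finsupp.mapRange_apply]
  exact ZMod.intCast_zmod_cast _

theorem ker_red :
    LinearMap.ker (red G X p) = LinearMap.range (pMul (MonoidAlgebra ℤ G) p (PermZ G X)) := by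
  ext v
  rw [LinearMap.mem_ker, mem_range_pMul]
  constructor
  · intro h
    have hv : ∀ x, (p : ℤ) ∣ coeffFn v x := fun x => by
      have := DFunLike.congr_fun (congrArg coeffFn h) x
      rw [coeffFn_red] at this
      exact (ZMod.intCast_zmod_eq_zero_iff_dvd _ _).1 this
    refine ⟨(Finsupp.mapRange (fun a : ℤ => a / p) (by simp) (coeffFn v) : X →₀ ℤ), ?_⟩
    apply coeffFn_injective
    apply Finsupp.ext
    intro x
    rw [coeffFn_nsmul, Finsupp.smul_apply]
    show p • (Finsupp.mapRange (fun a : ℤ => a / p) _ (coeffFn v)) x = coeffFn v x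
    rw [Finsupp.mapRange_apply, nsmul_eq_mul]
    exact Int.mul_ediv_cancel' (hv x)
  · rintro ⟨w, rfl⟩
    rw [map_nsmul]
    apply coeffFn_injective
    apply Finsupp.ext
    intro x
    rw [coeffFn_nsmul, Finsupp.smul_apply, nsmul_eq_mul]
    simp

/-- `ℤ[X] / p ℤ[X] ≃ 𝔽_p[X]`. -/
def redEquiv :
    (PermZ G X ⧸ LinearMap.range (pMul (MonoidAlgebra ℤ G) p (PermZ G X))) ≃ₗ[MonoidAlgebra ℤ G]
      PermP G X p :=
  (Submodule.quotEquivOfEq _ _ (ker_red G X p).symm).trans
    ((red G X p).quotKerEquivOfSurjective (red_surjective G X p))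

theorem permZ_torsionFree (hp : p ≠ 0) (v : PermZ G X) (h : p • v = 0) : v = 0 := by
  apply coeffFn_injective
  apply Finsupp.ext
  intro x
  have h2 := DFunLike.congr_fun (congrArg coeffFn h) x
  rw [coeffFn_nsmul, Finsupp.smul_apply, nsmul_eq_mul] at h2
  rcases mul_eq_zero.1 h2 with h3 | h3
  · exact absurd (by exact_mod_cast h3) hp
  · exact h3

instance permP_pTors : PTors p (PermP G X p) :=
  ⟨fun v => by
    apply coeffFn_injective
    apply Finsupp.ext
    intro x
    rw [coeffFn_nsmul, Finsupp.smul_apply, nsmul_eq_mul]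
    simp⟩

instance permP_finite [Finite X] [NeZero p] : Finite (PermP G X p) :=
  Finite.of_equiv (X → ZMod p) (Finsupp.equivFunOnFinite (α := X) (M := ZMod p)).symm

theorem card_permP [Finite X] [NeZero p] : Nat.card (PermP G X p) = p ^ Nat.card X := by
  have h : Nat.card (PermP G X p) = Nat.card (X → ZMod p) :=
    Nat.card_congr (Finsupp.equivFunOnFinite (α := X) (M := ZMod p))
  rw [h, Nat.card_fun, Nat.card_zmod]

instance finite_permZ_quot [Finite X] [NeZero p] :
    Finite (PermZ G X ⧸ LinearMap.range (pMul (MonoidAlgebra ℤ G) p (PermZ G X))) :=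
  Finite.of_equiv _ (redEquiv G X p).symm.toEquiv

end Red

/-! ### Disjoint unions -/

section Sigma

variable {ι : Type} [Fintype ι] (Xs : ι → Type) [∀ i, MulAction G (Xs i)] (M)

/-- `M[Σ i, X i] ≃ Π i, M[X i]`, `ℤ[G]`-linearly. -/
def sigmaEquiv :
    (permRep G M (Σ i, Xs i)).asModule ≃ₗ[MonoidAlgebra ℤ G]
      (∀ i, (permRep G M (Xs i)).asModule) where
  toFun v := fun i => (Finsupp.sigmaFinsuppLEquivPiFinsupp ℤ (coeffFn v) i : Xs i →₀ M)
  invFun w := ((Finsupp.sigmaFinsuppLEquivPiFinsupp ℤ).symm (fun i => coeffFn (w i)) :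
    (Σ i, Xs i) →₀ M)
  left_inv v := (Finsupp.sigmaFinsuppLEquivPiFinsupp ℤ).symm_apply_apply _
  right_inv w := (Finsupp.sigmaFinsuppLEquivPiFinsupp ℤ).apply_symm_apply _
  map_add' v w := (Finsupp.sigmaFinsuppLEquivPiFinsupp ℤ).map_add _ _
  map_smul' r v := by
    let f : (permRep G M (Σ i, Xs i)).asModule →+ (∀ i, (permRep G M (Xs i)).asModule) :=
      { toFun := fun v i => (Finsupp.sigmaFinsuppLEquivPiFinsupp ℤ (coeffFn v) i : Xs i →₀ M)
        map_zero' := (Finsupp.sigmaFinsuppLEquivPiFinsupp ℤ).map_zero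
        map_add' := fun v w => (Finsupp.sigmaFinsuppLEquivPiFinsupp ℤ).map_add _ _ }
    refine map_smul_of_single f (fun g t => ?_) r v
    funext i
    apply coeffFn_injective
    rw [Pi.smul_apply, coeffFn_single_smul]
    show Finsupp.sigmaFinsuppLEquivPiFinsupp ℤ (coeffFn (MonoidAlgebra.single g (1 : ℤ) • t)) i = _
    rw [coeffFn_single_smul]
    apply Finsupp.ext
    intro x
    rw [Finsupp.sigmaFinsuppLEquivPiFinsupp_apply]
    have h1 : (⟨i, x⟩ : Σ i, Xs i) = g • (⟨i, g⁻¹ • x⟩ : Σ i, Xs i) := by
      rw [Sigma.smul_mk, smul_inv_smul]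
    have h2 : x = g • (g⁻¹ • x) := (smul_inv_smul g x).symm
    rw [h1, permRep_apply_apply, h2, permRep_apply_apply, ← h2]
    rfl

end Sigma

end Perm

end Fermat.Agent.S56.GEC.Induction
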