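/-
S56 / GEC / (T1c) (helper1): removing the `p`-part of a cyclic subgroup.

For `σ : G` (finite group) with `p ^ a ∣ orderOf σ`, `τ = σ ^ (p ^ a)`: right multiplication by `σ` is a
`G`-automorphism of the `G`-set `G ⧸ ⟨τ⟩` of order dividing `p ^ a`; on `P = 𝔽_p[G ⧸ ⟨τ⟩]` the operator
`y = S - 1` satisfies `y ^ (p ^ a) = 0`, `P / yP ≃ 𝔽_p[G ⧸ ⟨σ⟩]`, and `|P| = |𝔽_p[G ⧸ ⟨σ⟩]| ^ (p ^ a)`.  Hence
for every additive invariant `F`:

  `F(𝔽_p[G ⧸ ⟨σ ^ (p ^ a)⟩]) = p ^ a * F(𝔽_p[G ⧸ ⟨σ⟩])`   (`AddInv.f_permP_zpowers_pow`)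

and an invariant vanishing on `𝔽_p[G ⧸ ⟨τ⟩]` for all `τ` of order prime to `p` vanishes on
`𝔽_p[G ⧸ ⟨σ⟩]` for every `σ` (`AddInv.f_permP_zpowers_eq_zero`).
-/
import Mathlib
import Fermat.Agent.S56.GEC.Induction.Perm

set_option autoImplicit false
set_option linter.unusedSectionVars false
set_option linter.style.haveILetI false

noncomputable section

namespace Fermat.Agent.S56.GEC.Induction

open Subgroup

variable {G : Type} [Group G]

/-! ### Elements of permutation modules from coefficient functions -/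

section OfCoeffFn

variable (G) {M X : Type} [AddCommGroup M] [MulAction G X]

/-- The element of a permutation module with prescribed coefficient function (inverse of `coeffFn`). -/
def ofCoeffFn (v : X →₀ M) : (permRep G M X).asModule := v

@[simp] theorem coeffFn_ofCoeffFn (v : X →₀ M) : coeffFn (ofCoeffFn G v) = v := rfl

@[simp] theorem ofCoeffFn_coeffFn (v : (permRep G M X).asModule) : ofCoeffFn G (coeffFn v) = v := rfl

theorem ofCoeffFn_add (v w : X →₀ M) : ofCoeffFn G (v + w) = ofCoeffFn G v + ofCoeffFn G w := rfl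

theorem ofCoeffFn_sub (v w : X →₀ M) : ofCoeffFn G (v - w) = ofCoeffFn G v - ofCoeffFn G w := rfl

theorem ofCoeffFn_zero : ofCoeffFn G (0 : X →₀ M) = 0 := rfl

end OfCoeffFn

/-! ### Right multiplication on `G ⧸ ⟨τ⟩` -/

section RMul

variable (σ : G) (n : ℕ)

/-- Right multiplication by `σ` on `G ⧸ ⟨σ ^ n⟩`. -/
def rMul : G ⧸ zpowers (σ ^ n) → G ⧸ zpowers (σ ^ n) :=
  Quotient.map' (· * σ) (fun x y h => by
    rw [QuotientGroup.leftRel_apply] at h ⊢
    obtain ⟨k, hk⟩ := mem_zpowers_iff.1 h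
    have hc : Commute σ (x⁻¹ * y) := by
      rw [← hk]
      exact ((Commute.refl σ).pow_right n).zpow_right k
    have : (x * σ)⁻¹ * (y * σ) = x⁻¹ * y := by
      rw [mul_inv_rev, mul_assoc, ← mul_assoc x⁻¹, ← hc.eq, inv_mul_cancel_left]
    rw [this]
    exact h)

theorem rMul_mk (x : G) : rMul σ n (QuotientGroup.mk x) = QuotientGroup.mk (x * σ) := rfl

theorem rMul_smul (g : G) (q : G ⧸ zpowers (σ ^ n)) : rMul σ n (g • q) = g • rMul σ n q := by
  induction q using QuotientGroup.induction_on with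
  | H x =>
    show rMul σ n (QuotientGroup.mk (g * x)) = g • (QuotientGroup.mk (x * σ) : G ⧸ zpowers (σ ^ n))
    rw [rMul_mk, mul_assoc]
    rfl

theorem rMul_iterate (k : ℕ) (x : G) :
    (rMul σ n)^[k] (QuotientGroup.mk x) = QuotientGroup.mk (x * σ ^ k) := by
  induction k with
  | zero => simp
  | succ k ih => rw [Function.iterate_succ_apply', ih, rMul_mk, mul_assoc, ← pow_succ]

theorem rMul_iterate_self (q : G ⧸ zpowers (σ ^ n)) : (rMul σ n)^[n] q = q := by
  induction q using QuotientGroup.induction_on with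
  | H x =>
    rw [rMul_iterate]
    apply QuotientGroup.eq.2
    rw [mul_inv_rev, inv_mul_cancel_right]
    exact inv_mem (mem_zpowers _)

/-- The projection `G ⧸ ⟨σ ^ n⟩ → G ⧸ ⟨σ⟩`. -/
def proj : G ⧸ zpowers (σ ^ n) → G ⧸ zpowers σ :=
  quotientMapOfLE (zpowers_le.2 (pow_mem (mem_zpowers σ) n))

theorem proj_mk (x : G) : proj σ n (QuotientGroup.mk x) = QuotientGroup.mk x := rfl

theorem proj_smul (g : G) (q : G ⧸ zpowers (σ ^ n)) : proj σ n (g • q) = g • proj σ n q := by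
  induction q using QuotientGroup.induction_on with
  | H x => rfl

theorem proj_surjective : Function.Surjective (proj σ n) := fun q => by
  induction q using QuotientGroup.induction_on with
  | H x => exact ⟨QuotientGroup.mk x, rfl⟩

theorem proj_rMul (q : G ⧸ zpowers (σ ^ n)) : proj σ n (rMul σ n q) = proj σ n q := by
  induction q using QuotientGroup.induction_on with
  | H x =>
    rw [rMul_mk, proj_mk, proj_mk]
    apply QuotientGroup.eq.2
    rw [mul_inv_rev, inv_mul_cancel_right]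
    exact inv_mem (mem_zpowers _)

theorem exists_iterate_eq_of_proj_eq [Finite G] {q q' : G ⧸ zpowers (σ ^ n)}
    (h : proj σ n q = proj σ n q') : ∃ k : ℕ, q' = (rMul σ n)^[k] q := by
  induction q using QuotientGroup.induction_on with
  | H x =>
    induction q' using QuotientGroup.induction_on with
    | H x' =>
      rw [proj_mk, proj_mk] at h
      have h1 : x⁻¹ * x' ∈ zpowers σ := QuotientGroup.eq.1 h
      obtain ⟨k, hk⟩ := (mem_powers_iff_mem_zpowers).2 h1
      refine ⟨k, ?_⟩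
      rw [rMul_iterate]
      have hk' : σ ^ k = x⁻¹ * x' := hk
      rw [hk', mul_inv_cancel_left]

end RMul

/-! ### The operator `y = S - 1` -/

section Operator

variable [Finite G] (p : ℕ) [Fact p.Prime] (σ : G) (a : ℕ)

/-- `S`: the `ℤ[G]`-endomorphism of `𝔽_p[G ⧸ ⟨σ ^ (p^a)⟩]` induced by right multiplication by `σ`. -/
def sOp : Module.End (MonoidAlgebra ℤ G) (PermP G (G ⧸ zpowers (σ ^ (p ^ a))) p) :=
  permMap (ZMod p) (rMul σ (p ^ a)) (rMul_smul σ (p ^ a))

theorem coeffFn_sOp_pow (k : ℕ) (v : PermP G (G ⧸ zpowers (σ ^ (p ^ a))) p) :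
    coeffFn ((sOp p σ a ^ k) v) = Finsupp.mapDomain ((rMul σ (p ^ a))^[k]) (coeffFn v) := by
  induction k generalizing v with
  | zero => simp
  | succ k ih =>
    rw [pow_succ, Module.End.mul_apply, ih, Function.iterate_succ]
    show Finsupp.mapDomain _ (Finsupp.mapDomain (rMul σ (p ^ a)) (coeffFn v)) = _
    rw [← Finsupp.mapDomain_comp]

theorem sOp_pow_eq_one : sOp p σ a ^ (p ^ a) = 1 := by
  ext v
  apply coeffFn_injective
  rw [coeffFn_sOp_pow]
  have : (rMul σ (p ^ a))^[p ^ a] = id := funext (rMul_iterate_self σ (p ^ a))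
  rw [this, Finsupp.mapDomain_id]
  rfl

instance charP_end : CharP (Module.End (MonoidAlgebra ℤ G) (PermP G (G ⧸ zpowers (σ ^ (p ^ a))) p)) p :=
  ⟨fun m => by
    constructor
    · intro h
      let e₁ : PermP G (G ⧸ zpowers (σ ^ (p ^ a))) p :=
        ofCoeffFn G (Finsupp.single (QuotientGroup.mk 1) 1 : (G ⧸ zpowers (σ ^ (p ^ a))) →₀ ZMod p)
      have h1 : ((m : Module.End (MonoidAlgebra ℤ G) (PermP G (G ⧸ zpowers (σ ^ (p ^ a))) p))) e₁ = 0 := by
        rw [h]; rfl
      rw [← nsmul_one, LinearMap.smul_apply, Module.End.one_apply] at h1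
      have h2 := DFunLike.congr_fun (congrArg coeffFn h1) (QuotientGroup.mk 1)
      rw [coeffFn_nsmul, Finsupp.smul_apply] at h2
      have h3 : m • (1 : ZMod p) = 0 := by
        have : coeffFn e₁ (QuotientGroup.mk 1) = 1 := Finsupp.single_eq_same
        rw [this] at h2
        exact h2
      rw [nsmul_eq_mul, mul_one] at h3
      exact (ZMod.natCast_eq_zero_iff m p).1 h3
    · rintro ⟨c, rfl⟩
      ext v
      rw [← nsmul_one, LinearMap.smul_apply, Module.End.one_apply, mul_comm, mul_nsmul,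
        PTors.nsmul_eq_zero (p := p), LinearMap.zero_apply]⟩

theorem sOp_sub_one_pow : (sOp p σ a - 1) ^ (p ^ a) = 0 := by
  rw [sub_pow_char_pow_of_commute p a (Commute.one_right _), sOp_pow_eq_one, one_pow, sub_self]

/-- `π_*`. -/
def projOp : PermP G (G ⧸ zpowers (σ ^ (p ^ a))) p →ₗ[MonoidAlgebra ℤ G] PermP G (G ⧸ zpowers σ) p :=
  permMap (ZMod p) (proj σ (p ^ a)) (proj_smul σ (p ^ a))

theorem projOp_surjective : Function.Surjective (projOp p σ a) :=
  permMap_surjective _ _ _ (proj_surjective σ (p ^ a))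

theorem projOp_sOp (v : PermP G (G ⧸ zpowers (σ ^ (p ^ a))) p) :
    projOp p σ a (sOp p σ a v) = projOp p σ a v := by
  apply coeffFn_injective
  show Finsupp.mapDomain (proj σ (p ^ a)) (Finsupp.mapDomain (rMul σ (p ^ a)) (coeffFn v)) =
    Finsupp.mapDomain (proj σ (p ^ a)) (coeffFn v)
  rw [← Finsupp.mapDomain_comp]
  congr 1
  funext q
  exact proj_rMul σ (p ^ a) q

theorem range_le_ker_projOp :
    LinearMap.range (sOp p σ a - 1) ≤ LinearMap.ker (projOp p σ a) := by
  rintro _ ⟨v, rfl⟩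
  rw [LinearMap.mem_ker, LinearMap.sub_apply, Module.End.one_apply, map_sub, projOp_sOp, sub_self]

/-- `P / yP → 𝔽_p[G ⧸ ⟨σ⟩]`. -/
def projBar : (PermP G (G ⧸ zpowers (σ ^ (p ^ a))) p ⧸ LinearMap.range (sOp p σ a - 1)) →ₗ[MonoidAlgebra ℤ G]
    PermP G (G ⧸ zpowers σ) p :=
  (LinearMap.range (sOp p σ a - 1)).liftQ (projOp p σ a) (range_le_ker_projOp p σ a)

theorem single_sub_single_mem_range {q q' : G ⧸ zpowers (σ ^ (p ^ a))}
    (h : proj σ (p ^ a) q = proj σ (p ^ a) q') (c : ZMod p) :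
    (ofCoeffFn G (Finsupp.single q' c - Finsupp.single q c) :
      PermP G (G ⧸ zpowers (σ ^ (p ^ a))) p) ∈ LinearMap.range (sOp p σ a - 1) := by
  obtain ⟨k, rfl⟩ := exists_iterate_eq_of_proj_eq σ (p ^ a) h
  let v : PermP G (G ⧸ zpowers (σ ^ (p ^ a))) p := ofCoeffFn G (Finsupp.single q c)
  have h1 : (sOp p σ a ^ k - 1) v =
      ofCoeffFn G (Finsupp.single ((rMul σ (p ^ a))^[k] q) c - Finsupp.single q c) := by
    rw [LinearMap.sub_apply, Module.End.one_apply]
    apply coeffFn_injective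
    show coeffFn ((sOp p σ a ^ k) v) - coeffFn v = _
    rw [coeffFn_sOp_pow]
    show Finsupp.mapDomain _ (Finsupp.single q c) - Finsupp.single q c = _
    rw [Finsupp.mapDomain_single]
    rfl
  rw [← h1, ← mul_geom_sum]
  exact ⟨_, rfl⟩

theorem projBar_bijective : Function.Bijective (projBar p σ a) := by
  classical
  constructor
  · -- a set-theoretic left inverse
    let sec : G ⧸ zpowers σ → G ⧸ zpowers (σ ^ (p ^ a)) := Function.surjInv (proj_surjective σ (p ^ a))
    have hsec : ∀ q, proj σ (p ^ a) (sec q) = q := Function.surjInv_eq _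
    let inj : ((G ⧸ zpowers (σ ^ (p ^ a))) →₀ ZMod p) →+
        (PermP G (G ⧸ zpowers (σ ^ (p ^ a))) p ⧸ LinearMap.range (sOp p σ a - 1)) :=
      { toFun := fun w => (LinearMap.range (sOp p σ a - 1)).mkQ (ofCoeffFn G w)
        map_zero' := by rw [ofCoeffFn_zero, map_zero]
        map_add' := fun w₁ w₂ => by rw [ofCoeffFn_add, map_add] }
    let s : ((G ⧸ zpowers σ) →₀ ZMod p) →+
        (PermP G (G ⧸ zpowers (σ ^ (p ^ a))) p ⧸ LinearMap.range (sOp p σ a - 1)) :=
      Finsupp.liftAddHom (fun q => inj.comp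
          ((Finsupp.singleAddHom (sec q) : ZMod p →+ ((G ⧸ zpowers (σ ^ (p ^ a))) →₀ ZMod p))))
    have hv : ∀ w : (G ⧸ zpowers (σ ^ (p ^ a))) →₀ ZMod p,
        s (Finsupp.mapDomain (proj σ (p ^ a)) w) = inj w := by
      intro w
      induction w using Finsupp.induction_linear with
      | zero => rw [Finsupp.mapDomain_zero, map_zero, map_zero]
      | add w₁ w₂ h₁ h₂ => rw [Finsupp.mapDomain_add, map_add, h₁, h₂, map_add]
      | single q c =>
        rw [Finsupp.mapDomain_single, Finsupp.liftAddHom_apply_single]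
        show inj (Finsupp.single (sec (proj σ (p ^ a) q)) c) = inj (Finsupp.single q c)
        rw [← sub_eq_zero, ← map_sub]
        exact (Submodule.Quotient.mk_eq_zero _).2
          (single_sub_single_mem_range p σ a (hsec _).symm c)
    have hs : ∀ z, s (coeffFn (projBar p σ a z)) = z := by
      intro z
      obtain ⟨v, rfl⟩ := Submodule.mkQ_surjective _ z
      show s (coeffFn (projOp p σ a v)) = _
      exact hv (coeffFn v)
    intro z z' h
    rw [← hs z, ← hs z', h]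
  · intro w
    obtain ⟨v, rfl⟩ := projOp_surjective p σ a w
    exact ⟨Submodule.Quotient.mk v, rfl⟩

end Operator

/-! ### The main statements -/

namespace AddInv

variable [Finite G] {p : ℕ} [Fact p.Prime] (F : AddInv (MonoidAlgebra ℤ G) p)

/-- **(T1c)**: `F(𝔽_p[G ⧸ ⟨σ ^ (p ^ a)⟩]) = p ^ a * F(𝔽_p[G ⧸ ⟨σ⟩])` when `p ^ a ∣ orderOf σ`. -/
theorem f_permP_zpowers_pow (σ : G) (a : ℕ) (ha : p ^ a ∣ orderOf σ) :
    F.f (PermP G (G ⧸ zpowers (σ ^ (p ^ a))) p) =
      ((p ^ a : ℕ) : ℤ) * F.f (PermP G (G ⧸ zpowers σ) p) := by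
  haveI : NeZero p := ⟨(Fact.out : p.Prime).ne_zero⟩
  refine F.eq_mul_of_card (sOp p σ a - 1) (p ^ a) (sOp_sub_one_pow p σ a)
    (LinearEquiv.ofBijective (projBar p σ a) (projBar_bijective p σ a)) ?_
  rw [card_permP, card_permP, ← pow_mul]
  congr 1
  -- `|G ⧸ ⟨σ^(p^a)⟩| = |G ⧸ ⟨σ⟩| * p ^ a`
  have hpa : p ^ a ≠ 0 := pow_ne_zero _ (Fact.out : p.Prime).ne_zero
  have h1 := Subgroup.card_eq_card_quotient_mul_card_subgroup (zpowers (σ ^ (p ^ a)))
  have h2 := Subgroup.card_eq_card_quotient_mul_card_subgroup (zpowers σ)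
  rw [Nat.card_zpowers] at h1 h2
  rw [orderOf_pow_of_dvd hpa ha] at h1
  have hpos : 0 < orderOf σ / p ^ a :=
    Nat.div_pos (Nat.le_of_dvd (orderOf_pos σ) ha) (Nat.pos_of_ne_zero hpa)
  apply Nat.eq_of_mul_eq_mul_right hpos
  rw [← h1, mul_assoc, Nat.mul_div_cancel' ha, ← h2]

/-- An invariant vanishing on `𝔽_p[G ⧸ ⟨τ⟩]` for all `τ` of order prime to `p` vanishes on
`𝔽_p[G ⧸ ⟨σ⟩]` for every `σ`. -/
theorem f_permP_zpowers_eq_zero
    (h : ∀ τ : G, ¬ p ∣ orderOf τ → F.f (PermP G (G ⧸ zpowers τ) p) = 0) (σ : G) :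
    F.f (PermP G (G ⧸ zpowers σ) p) = 0 := by
  obtain ⟨a, n', hn', hσ⟩ := Nat.exists_eq_pow_mul_and_not_dvd (orderOf_pos σ).ne' p
    (Fact.out : p.Prime).ne_one
  have hpa : p ^ a ≠ 0 := pow_ne_zero _ (Fact.out : p.Prime).ne_zero
  have ha : p ^ a ∣ orderOf σ := ⟨n', hσ⟩
  have h1 := F.f_permP_zpowers_pow σ a ha
  have h2 : ¬ p ∣ orderOf (σ ^ (p ^ a)) := by
    rw [orderOf_pow_of_dvd hpa ha, hσ, Nat.mul_div_cancel_left _ (Nat.pos_of_ne_zero hpa)]
    exact hn'
  rw [h _ h2] at h1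
  have h3 : ((p ^ a : ℕ) : ℤ) ≠ 0 := by exact_mod_cast hpa
  exact (mul_eq_zero.1 h1.symm).resolve_left h3

end AddInv

end Fermat.Agent.S56.GEC.Induction
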