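/-
S56 / GEC / (T1), group layer, part 2 (helper1): the diagonal tensor product `T ⊠ Z` of `ℤ[G]`-modules
and the twisted invariant `f(− ⊠ Z)`.

* `repOf T : Representation ℤ G T` for a `ℤ[G]`-module `T`;
* `TZ G T Z = T ⊗[ℤ] Z` with the diagonal action, as a `ℤ[G]`-module; `mapTZ`;
* exactness of `− ⊠ Z` on finite `p`-torsion modules (`p` prime), finiteness, `p`-torsion;
* `AddInv.tensor F Z : AddInv (MonoidAlgebra ℤ G) p`, `T ↦ F.f (TZ G T Z)`;
* `tzUniqueEquiv : TZ (𝔽_p[X]) Z ≃ₗ[ℤ[G]] Z` for a one-point `G`-set `X` and `p`-torsion `Z`.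
-/
import Mathlib
import Fermat.Agent.S56.GEC.Induction.Perm

set_option autoImplicit false
set_option linter.unusedSectionVars false
set_option linter.style.haveILetI false

noncomputable section

namespace Fermat.Agent.S56.GEC.Induction

open Representation TensorProduct

variable {G : Type} [Group G]

/-! ### The representation of a `ℤ[G]`-module -/

section RepOf

variable (T : Type) [AddCommGroup T] [Module (MonoidAlgebra ℤ G) T]

/-- The `ℤ`-linear representation of `G` on a `ℤ[G]`-module. -/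
def repOf : Representation ℤ G T where
  toFun g := (DistribSMul.toAddMonoidHom T
    (MonoidAlgebra.single g (1 : ℤ) : MonoidAlgebra ℤ G)).toIntLinearMap
  map_one' := by
    ext t
    show (MonoidAlgebra.single (1 : G) (1 : ℤ) : MonoidAlgebra ℤ G) • t = t
    rw [← MonoidAlgebra.one_def, one_smul]
  map_mul' g h := by
    ext t
    show (MonoidAlgebra.single (g * h) (1 : ℤ) : MonoidAlgebra ℤ G) • t =
      (MonoidAlgebra.single g (1 : ℤ) : MonoidAlgebra ℤ G) •
        ((MonoidAlgebra.single h (1 : ℤ) : MonoidAlgebra ℤ G) • t)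
    rw [← mul_smul, MonoidAlgebra.single_mul_single, mul_one]

variable {T}

theorem repOf_apply (g : G) (t : T) :
    repOf T g t = (MonoidAlgebra.single g (1 : ℤ) : MonoidAlgebra ℤ G) • t := rfl

end RepOf

/-! ### The diagonal tensor product -/

section TZ

variable (G) (T T' T'' Z Z' : Type) [AddCommGroup T] [Module (MonoidAlgebra ℤ G) T]
  [AddCommGroup T'] [Module (MonoidAlgebra ℤ G) T'] [AddCommGroup T''] [Module (MonoidAlgebra ℤ G) T'']
  [AddCommGroup Z] [Module (MonoidAlgebra ℤ G) Z] [AddCommGroup Z'] [Module (MonoidAlgebra ℤ G) Z']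

/-- `T ⊗[ℤ] Z` with the diagonal action of `G`, as a `ℤ[G]`-module. -/
abbrev TZ : Type :=
  ((repOf T : Representation ℤ G T).tprod (repOf Z : Representation ℤ G Z)).asModule

variable {G T T' T'' Z Z'}

/-- The underlying tensor. -/
def TZ.toTensor (x : TZ G T Z) : T ⊗[ℤ] Z := x

/-- From a tensor. -/
def TZ.ofTensor (x : T ⊗[ℤ] Z) : TZ G T Z := x

theorem TZ.single_smul (g : G) (x : TZ G T Z) :
    TZ.toTensor ((MonoidAlgebra.single g (1 : ℤ) : MonoidAlgebra ℤ G) • x) =
      TensorProduct.map (repOf T g) (repOf Z g) (TZ.toTensor x) :=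
  single_smul_asModule g x

/-- Functoriality of `⊠`. -/
def mapTZ (φ : T →ₗ[MonoidAlgebra ℤ G] T') (ψ : Z →ₗ[MonoidAlgebra ℤ G] Z') :
    TZ G T Z →ₗ[MonoidAlgebra ℤ G] TZ G T' Z' :=
  asModuleMap (TensorProduct.map φ.toAddMonoidHom.toIntLinearMap ψ.toAddMonoidHom.toIntLinearMap)
    (fun g v => by
      induction v using TensorProduct.induction_on with
      | zero => rw [map_zero, map_zero, map_zero]
      | add a b ha hb => rw [map_add, map_add, ha, hb, map_add, map_add]
      | tmul t z =>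
        show (φ (repOf T g t)) ⊗ₜ[ℤ] (ψ (repOf Z g z)) = (repOf T' g (φ t)) ⊗ₜ[ℤ] (repOf Z' g (ψ z))
        rw [repOf_apply, repOf_apply, map_smul, map_smul]
        rfl)

theorem mapTZ_toTensor (φ : T →ₗ[MonoidAlgebra ℤ G] T') (ψ : Z →ₗ[MonoidAlgebra ℤ G] Z')
    (x : TZ G T Z) :
    TZ.toTensor (mapTZ φ ψ x) =
      TensorProduct.map φ.toAddMonoidHom.toIntLinearMap ψ.toAddMonoidHom.toIntLinearMap
        (TZ.toTensor x) := rfl

theorem mapTZ_surjective (φ : T →ₗ[MonoidAlgebra ℤ G] T') (hφ : Function.Surjective φ) :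
    Function.Surjective (mapTZ φ (LinearMap.id : Z →ₗ[MonoidAlgebra ℤ G] Z)) :=
  TensorProduct.map_surjective hφ Function.surjective_id

theorem mapTZ_exact (φ : T' →ₗ[MonoidAlgebra ℤ G] T) (ψ : T →ₗ[MonoidAlgebra ℤ G] T'')
    (hex : Function.Exact φ ψ) (hψ : Function.Surjective ψ) :
    Function.Exact (mapTZ φ (LinearMap.id : Z →ₗ[MonoidAlgebra ℤ G] Z))
      (mapTZ ψ (LinearMap.id : Z →ₗ[MonoidAlgebra ℤ G] Z)) :=
  rTensor_exact Z (f := φ.toAddMonoidHom.toIntLinearMap) (g := ψ.toAddMonoidHom.toIntLinearMap)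
    hex hψ

/-- Equivalences. -/
def congrTZ (e : T ≃ₗ[MonoidAlgebra ℤ G] T') : TZ G T Z ≃ₗ[MonoidAlgebra ℤ G] TZ G T' Z :=
  LinearEquiv.ofBijective (mapTZ e.toLinearMap LinearMap.id)
    (TensorProduct.congr e.toAddEquiv.toIntLinearEquiv (LinearEquiv.refl ℤ Z)).bijective

theorem nsmul_tmul (n : ℕ) (t : T) (z : Z) : n • (t ⊗ₜ[ℤ] z) = (n • t) ⊗ₜ[ℤ] z := by
  induction n with
  | zero => rw [zero_nsmul, zero_nsmul, zero_tmul]
  | succ n ih => rw [succ_nsmul, succ_nsmul, add_tmul, ih]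

theorem tmul_nsmul_eq (n : ℕ) (t : T) (z : Z) : t ⊗ₜ[ℤ] (n • z) = (n • t) ⊗ₜ[ℤ] z := by
  induction n with
  | zero => rw [zero_nsmul, zero_nsmul, zero_tmul, tmul_zero]
  | succ n ih => rw [succ_nsmul, succ_nsmul, add_tmul, tmul_add, ih]

theorem nsmul_tensor_eq_zero (p : ℕ) [PTors p T] (x : T ⊗[ℤ] Z) : p • x = 0 := by
  induction x using TensorProduct.induction_on with
  | zero => rw [smul_zero]
  | add a b ha hb => rw [smul_add, ha, hb, add_zero]
  | tmul t z => rw [nsmul_tmul, PTors.nsmul_eq_zero, TensorProduct.zero_tmul]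

instance TZ.pTors (p : ℕ) [PTors p T] : PTors p (TZ G T Z) :=
  ⟨fun x => nsmul_tensor_eq_zero p (TZ.toTensor x)⟩

theorem TZ.finite (p : ℕ) (hp : p ≠ 0) [Finite T] [Finite Z] [PTors p T] : Finite (TZ G T Z) := by
  haveI : Module.Finite ℤ T := Module.Finite.of_finite
  haveI : Module.Finite ℤ Z := Module.Finite.of_finite
  have hfin : @Module.Finite ℤ (T ⊗[ℤ] Z) _ _ TensorProduct.instModule :=
    Module.Finite.tensorProduct ℤ T Z
  refine @Module.finite_of_fg_torsion (T ⊗[ℤ] Z) _ TensorProduct.instModule hfin fun x => ?_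
  refine ⟨⟨(p : ℤ), mem_nonZeroDivisors_of_ne_zero (by exact_mod_cast hp)⟩, ?_⟩
  exact (Nat.cast_smul_eq_nsmul ℤ p x).trans (nsmul_tensor_eq_zero p x)

/-- An injective homomorphism of `p`-torsion groups (`p` prime) has a retraction. -/
theorem exists_retraction (p : ℕ) [Fact p.Prime] {A B : Type} [AddCommGroup A] [AddCommGroup B]
    [PTors p A] [PTors p B] (i : A →+ B) (hi : Function.Injective i) :
    ∃ r : B →+ A, ∀ a, r (i a) = a := by
  letI : Module (ZMod p) A := AddCommGroup.zmodModule PTors.nsmul_eq_zero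
  letI : Module (ZMod p) B := AddCommGroup.zmodModule PTors.nsmul_eq_zero
  obtain ⟨r, hr⟩ := (AddMonoidHom.toZModLinearMap p i).exists_leftInverse_of_injective
    (LinearMap.ker_eq_bot.2 hi)
  exact ⟨r.toAddMonoidHom, fun a => LinearMap.congr_fun hr a⟩

theorem mapTZ_injective (p : ℕ) [Fact p.Prime] [PTors p T] [PTors p T']
    (φ : T' →ₗ[MonoidAlgebra ℤ G] T) (hφ : Function.Injective φ) :
    Function.Injective (mapTZ φ (LinearMap.id : Z →ₗ[MonoidAlgebra ℤ G] Z)) := by
  obtain ⟨r, hr⟩ := exists_retraction p φ.toAddMonoidHom hφ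
  have h : (TensorProduct.map r.toIntLinearMap (LinearMap.id : Z →ₗ[ℤ] Z)) ∘ₗ
      (TensorProduct.map φ.toAddMonoidHom.toIntLinearMap (LinearMap.id : Z →ₗ[ℤ] Z)) =
        LinearMap.id := by
    rw [← TensorProduct.map_comp]
    have : r.toIntLinearMap ∘ₗ φ.toAddMonoidHom.toIntLinearMap = LinearMap.id :=
      LinearMap.ext fun a => hr a
    rw [this, LinearMap.id_comp, TensorProduct.map_id]
  intro x y hxy
  have h1 := DFunLike.congr_fun h (TZ.toTensor x)
  have h2 := DFunLike.congr_fun h (TZ.toTensor y)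
  rw [LinearMap.comp_apply, LinearMap.id_apply] at h1 h2
  have h3 : TensorProduct.map φ.toAddMonoidHom.toIntLinearMap (LinearMap.id : Z →ₗ[ℤ] Z)
      (TZ.toTensor x) = TensorProduct.map φ.toAddMonoidHom.toIntLinearMap
        (LinearMap.id : Z →ₗ[ℤ] Z) (TZ.toTensor y) := hxy
  rw [h3] at h1
  exact h1.symm.trans h2

end TZ

/-! ### The twisted invariant -/

section Twist

variable {p : ℕ} [Fact p.Prime]

/-- **The twisted invariant `T ↦ f(T ⊠ Z)`.** -/
def AddInv.tensor (F : AddInv (MonoidAlgebra ℤ G) p) (Z : Type) [AddCommGroup Z]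
    [Module (MonoidAlgebra ℤ G) Z] [Finite Z] : AddInv (MonoidAlgebra ℤ G) p where
  f T _ _ := F.f (TZ G T Z)
  iso {T T'} _ _ _ _ _ _ e := by
    haveI : Finite (TZ G T Z) := TZ.finite p (Fact.out : p.Prime).ne_zero
    exact F.iso (congrTZ e)
  add {T} _ _ _ _ S := by
    haveI : Finite (TZ G T Z) := TZ.finite p (Fact.out : p.Prime).ne_zero
    exact F.add_of_exact (mapTZ S.subtype LinearMap.id) (mapTZ S.mkQ LinearMap.id)
      (mapTZ_injective p S.subtype S.subtype_injective)
      (mapTZ_surjective S.mkQ S.mkQ_surjective)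
      (mapTZ_exact S.subtype S.mkQ (LinearMap.exact_subtype_mkQ S) S.mkQ_surjective)

theorem AddInv.tensor_f (F : AddInv (MonoidAlgebra ℤ G) p) (Z : Type) [AddCommGroup Z]
    [Module (MonoidAlgebra ℤ G) Z] [Finite Z] (T : Type) [AddCommGroup T]
    [Module (MonoidAlgebra ℤ G) T] : (F.tensor Z).f T = F.f (TZ G T Z) := rfl

end Twist

/-! ### `𝔽_p[pt] ⊠ Z ≃ Z` -/

section Unit

variable (p : ℕ) [Fact p.Prime] (X : Type) [MulAction G X] [Unique X]
  (Z : Type) [AddCommGroup Z] [Module (MonoidAlgebra ℤ G) Z] [PTors p Z]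

/-- `𝔽_p[X] ⊠ Z ≃ Z` for a one-point `G`-set `X` and a `p`-torsion module `Z`. -/
def tzUniqueEquiv : TZ G (PermP G X p) Z ≃ₗ[MonoidAlgebra ℤ G] Z := by
  letI : Module (ZMod p) Z := AddCommGroup.zmodModule PTors.nsmul_eq_zero
  have hval : ∀ (c : ZMod p) (z : Z), c • z = c.val • z := fun c z => by
    conv_lhs => rw [← ZMod.natCast_zmod_val c]
    exact Nat.cast_smul_eq_nsmul (ZMod p) c.val z
  let f : (X →₀ ZMod p) →+ Z →+ Z :=
    (smulAddHom (ZMod p) Z).comp (Finsupp.applyAddHom (default : X))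
  have hf : ∀ (r : ℤ) (v : X →₀ ZMod p) (z : Z), f (r • v) z = f v (r • z) := fun r v z => by
    show (r • v) default • z = v default • (r • z)
    rw [Finsupp.smul_apply, smul_assoc, smul_comm]
  let ev : (PermP G X p ⊗[ℤ] Z) →+ Z := TensorProduct.liftAddHom f hf
  have hev : ∀ (v : X →₀ ZMod p) (z : Z), ev (v ⊗ₜ[ℤ] z) = v default • z := fun v z => rfl
  let inc : Z →+ (PermP G X p ⊗[ℤ] Z) :=
    (TensorProduct.mk ℤ (PermP G X p) Z (Finsupp.single default 1 : X →₀ ZMod p)).toAddMonoidHom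
  have h1 : ∀ z, ev (inc z) = z := fun z => by
    show ev ((Finsupp.single default 1 : X →₀ ZMod p) ⊗ₜ[ℤ] z) = z
    rw [hev, Finsupp.single_eq_same, one_smul]
  have hsingle : ∀ v : X →₀ ZMod p, v = (v default).val • (Finsupp.single default 1 : X →₀ ZMod p) :=
    fun v => by
      apply Finsupp.unique_ext
      rw [Finsupp.smul_apply, Finsupp.single_eq_same, nsmul_eq_mul, mul_one, ZMod.natCast_zmod_val]
  have h2 : ∀ x, inc (ev x) = x := fun x => by
    induction x using TensorProduct.induction_on with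
    | zero => rw [map_zero, map_zero]
    | add a b ha hb => rw [map_add, map_add, ha, hb]
    | tmul v z =>
      let e₁ : PermP G X p := (Finsupp.single default 1 : X →₀ ZMod p)
      show e₁ ⊗ₜ[ℤ] (ev (v ⊗ₜ[ℤ] z)) = v ⊗ₜ[ℤ] z
      have hv' : v = (coeffFn v default).val • e₁ := hsingle v
      have : ev (v ⊗ₜ[ℤ] z) = (coeffFn v default).val • z := (hev v z).trans (hval _ _)
      rw [this, tmul_nsmul_eq, ← hv']
  let e : TZ G (PermP G X p) Z ≃+ Z :=
    { toFun := fun x => ev (TZ.toTensor x)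
      invFun := fun z => TZ.ofTensor (inc z)
      left_inv := fun x => h2 _
      right_inv := fun z => h1 z
      map_add' := fun x y => ev.map_add _ _ }
  refine { e with map_smul' := fun r x => ?_ }
  refine map_smul_of_single e.toAddMonoidHom (fun g t => ?_) r x
  show ev (TZ.toTensor ((MonoidAlgebra.single g (1 : ℤ) : MonoidAlgebra ℤ G) • t)) =
    (MonoidAlgebra.single g (1 : ℤ) : MonoidAlgebra ℤ G) • ev (TZ.toTensor t)
  rw [TZ.single_smul]
  induction TZ.toTensor t using TensorProduct.induction_on with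
  | zero => rw [map_zero, map_zero, smul_zero]
  | add a b ha hb => rw [map_add, map_add, ha, hb, map_add, smul_add]
  | tmul v z =>
    rw [TensorProduct.map_tmul]
    have hg : repOf (PermP G X p) g v = v := by
      rw [repOf_apply]
      apply coeffFn_injective
      rw [coeffFn_single_smul]
      apply Finsupp.unique_ext
      have h3 : (default : X) = g • (default : X) := Subsingleton.elim _ _
      conv_lhs => rw [h3]
      exact permRep_apply_apply g (coeffFn v) default
    rw [hg]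
    show coeffFn v default • (repOf Z g z) = _ • (coeffFn v default • z)
    rw [repOf_apply, hval, hval, smul_comm]

end Unit

end Fermat.Agent.S56.GEC.Induction
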