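/-
S56 / GEC / (T1) (helper1): the induction theorem for additive invariants.

`G` a finite group, `p` a prime, `R₀ = ℤ[G]`.  An additive invariant `F` of finite `p`-torsion
`R₀`-modules (`AddInv`) such that `F(𝔽_p[G ⧸ ⟨τ⟩] ⊠ Z) = 0` for every `τ : G` of order prime to `p`
and every finite `p`-torsion module `Z` (diagonal tensor product `TZ`, i.e. "`Ind_{⟨τ⟩}^G Res Z`")
vanishes identically:

  `AddInv.eq_zero_of_cyclic`.

Proof: fix `Z`, `g := F.tensor Z`.  (T1c) (`PPart`) gives `g(𝔽_p[G ⧸ C]) = 0` for every cyclic `C`.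
Artin's induction theorem in lattice form (`LatticeMap.exists_artin_map`, helper4) gives an injective
`ℤ[G]`-map with finite cokernel `ℤ[pt]^{|G|} ⊕ ⨁ ℤ[G ⧸ Cᵢ] → ⨁ ℤ[G ⧸ Dⱼ]`; by the lattice step
(`AddInv.lattice`) `|G| • g(𝔽_p[pt]) + ∑ g(𝔽_p[G ⧸ Cᵢ]) = ∑ g(𝔽_p[G ⧸ Dⱼ])`, so `g(𝔽_p[pt]) = 0`, and
`𝔽_p[pt] ⊠ Z ≃ Z`.
-/
import Mathlib
import Fermat.Agent.S56.GEC.Induction.PPart
import Fermat.Agent.S56.GEC.Induction.Tensor
import Fermat.Agent.S56.GEC.Induction.LatticeMap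

set_option autoImplicit false
set_option linter.unusedSectionVars false
set_option linter.style.haveILetI false

noncomputable section

namespace Fermat.Agent.S56.GEC.Induction

open Subgroup Representation

variable {G : Type} [Group G]

/-! ### Bridge to Mathlib's `Representation.ofMulAction` -/

/-- `(ofMulAction ℤ G X).asModule ≃ PermZ G X`. -/
def ofMulActionEquiv (X : Type) [MulAction G X] :
    (ofMulAction ℤ G X).asModule ≃ₗ[MonoidAlgebra ℤ G] PermZ G X :=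
  asModuleEquiv' (MonoidAlgebra.coeffLinearEquiv ℤ) (fun g v => by
    rw [ofMulAction_def]
    show (MonoidAlgebra.coeffLinearEquiv ℤ) ((MonoidAlgebra.coeffLinearEquiv ℤ).symm _) = _
    rw [LinearEquiv.apply_symm_apply]
    rfl)

namespace AddInv

variable {p : ℕ} [Fact p.Prime] (F : AddInv (MonoidAlgebra ℤ G) p)

/-- An injective `ℤ[G]`-map `ℤ[X] → ℤ[Y]` with finite cokernel forces `F(𝔽_p[X]) = F(𝔽_p[Y])`. -/
theorem f_permP_eq_of_map {X Y : Type} [MulAction G X] [MulAction G Y] [Finite X] [Finite Y]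
    (u : (ofMulAction ℤ G X).asModule →ₗ[MonoidAlgebra ℤ G] (ofMulAction ℤ G Y).asModule)
    (hu : Function.Injective u)
    (hfin : Finite ((ofMulAction ℤ G Y).asModule ⧸ LinearMap.range u)) :
    F.f (PermP G X p) = F.f (PermP G Y p) := by
  haveI : NeZero p := ⟨(Fact.out : p.Prime).ne_zero⟩
  let eX := ofMulActionEquiv (G := G) X
  let eY := ofMulActionEquiv (G := G) Y
  let u' : PermZ G X →ₗ[MonoidAlgebra ℤ G] PermZ G Y :=
    eY.toLinearMap ∘ₗ u ∘ₗ eX.symm.toLinearMap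
  have hu' : Function.Injective u' := eY.injective.comp (hu.comp eX.symm.injective)
  have hrange : (LinearMap.range u).map eY.toLinearMap = LinearMap.range u' := by
    ext y
    constructor
    · rintro ⟨_, ⟨x, rfl⟩, rfl⟩
      exact ⟨eX x, by simp [u']⟩
    · rintro ⟨x, rfl⟩
      exact ⟨u (eX.symm x), ⟨_, rfl⟩, rfl⟩
  haveI : Finite (PermZ G Y ⧸ LinearMap.range u') :=
    Finite.of_equiv _ (Submodule.Quotient.equiv (LinearMap.range u) (LinearMap.range u') eY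
      hrange).toEquiv
  have key := F.lattice u' hu' (permZ_torsionFree G Y p (Fact.out : p.Prime).ne_zero)
  rw [F.iso (redEquiv G X p), F.iso (redEquiv G Y p)] at key
  exact key

/-- **(T1c')** vanishing on `𝔽_p[G ⧸ ⟨τ⟩]`, `τ` of order prime to `p`, implies vanishing on
`𝔽_p[G ⧸ C]` for every cyclic subgroup `C`. -/
theorem f_permP_eq_zero_of_isCyclic [Finite G]
    (h : ∀ τ : G, ¬ p ∣ orderOf τ → F.f (PermP G (G ⧸ zpowers τ) p) = 0)
    (C : Subgroup G) (hC : IsCyclic C) : F.f (PermP G (G ⧸ C) p) = 0 := by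
  obtain ⟨σ, rfl⟩ := C.isCyclic_iff_exists_zpowers_eq_top.1 hC
  exact F.f_permP_zpowers_eq_zero h σ

/-- **Artin step**: an invariant vanishing on `𝔽_p[G ⧸ C]` for all cyclic `C` vanishes on
`𝔽_p[pt] = 𝔽_p[G ⧸ ⊤]`. -/
theorem f_permP_top_eq_zero [Finite G]
    (h : ∀ C : Subgroup G, IsCyclic C → F.f (PermP G (G ⧸ C) p) = 0) :
    F.f (PermP G (G ⧸ (⊤ : Subgroup G)) p) = 0 := by
  haveI : NeZero p := ⟨(Fact.out : p.Prime).ne_zero⟩
  obtain ⟨ι, κ, hι, hκ, C, D, hC, hD, u, hu, hfin⟩ := LatticeMap.exists_artin_map G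
  have key := F.f_permP_eq_of_map u hu hfin
  rw [F.iso (sigmaEquiv (ZMod p) _), F.pi, F.iso (sigmaEquiv (ZMod p) _), F.pi,
    Fintype.sum_sum_type] at key
  have key' : ∑ _i : Fin (Nat.card G), F.f (PermP G (G ⧸ (⊤ : Subgroup G)) p) +
      ∑ i, F.f (PermP G (G ⧸ C i) p) = ∑ j, F.f (PermP G (G ⧸ D j) p) := key
  clear key
  rw [Finset.sum_eq_zero (fun i _ => h (C i) (hC i)),
    Finset.sum_eq_zero (fun j _ => h (D j) (hD j)), add_zero, Finset.sum_const,
    Finset.card_univ, Fintype.card_fin, nsmul_eq_mul] at key'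
  have hne : ((Nat.card G : ℕ) : ℤ) ≠ 0 := by exact_mod_cast Nat.card_pos.ne'
  exact (mul_eq_zero.1 key').resolve_left hne

/-- **(T1) The induction theorem for additive invariants.**  If `F(𝔽_p[G ⧸ ⟨τ⟩] ⊠ Z) = 0` for every
`τ : G` of order prime to `p` and every finite `p`-torsion `ℤ[G]`-module `Z`, then `F = 0`. -/
theorem eq_zero_of_cyclic [Finite G]
    (h : ∀ τ : G, ¬ p ∣ orderOf τ → ∀ (Z : Type) [AddCommGroup Z] [Module (MonoidAlgebra ℤ G) Z]
      [Finite Z] [PTors p Z], F.f (TZ G (PermP G (G ⧸ zpowers τ) p) Z) = 0)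
    (Z : Type) [AddCommGroup Z] [Module (MonoidAlgebra ℤ G) Z] [Finite Z] [PTors p Z] :
    F.f Z = 0 := by
  haveI : NeZero p := ⟨(Fact.out : p.Prime).ne_zero⟩
  have h1 : (F.tensor Z).f (PermP G (G ⧸ (⊤ : Subgroup G)) p) = 0 :=
    (F.tensor Z).f_permP_top_eq_zero (fun C hC =>
      (F.tensor Z).f_permP_eq_zero_of_isCyclic (fun τ hτ => h τ hτ Z) C hC)
  rw [AddInv.tensor_f] at h1
  haveI : Unique (G ⧸ (⊤ : Subgroup G)) :=
    @Unique.mk' _ ⟨QuotientGroup.mk 1⟩ QuotientGroup.subsingleton_quotient_top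
  haveI : Finite (TZ G (PermP G (G ⧸ (⊤ : Subgroup G)) p) Z) :=
    TZ.finite p (Fact.out : p.Prime).ne_zero
  rw [← F.iso (tzUniqueEquiv p (G ⧸ (⊤ : Subgroup G)) Z)]
  exact h1

end AddInv

end Fermat.Agent.S56.GEC.Induction
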