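/-
S56 / GEC / (T1), `Rep` form (helper1).

The induction theorem `AddInv.eq_zero_of_cyclic` (`Induction/Main.lean`) restated in the language of
`Rep (ZMod p) Q` (`Q` a finite group), the language of D1 (`GEC/Additive.lean`: `fQuot_iso`, `fQuot_add`)
and D3 (`coindRes`):

* `toRep Q p T : Rep (ZMod p) Q` for a `ℤ[Q]`-module `T` killed by `p`; `toRepHom`, `toRepIso`;
* `ModOf Z` : the `ℤ[Q]`-module of `Z : Rep (ZMod p) Q`; `modOfIso : toRep (ModOf Z) ≅ Z`;
* `AddInv.ofRepFun f hiso hadd : AddInv ℤ[Q] p` for an isomorphism invariant additive `f`;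
* `projIso : toRep (𝔽_p[Q ⧸ C] ⊠ Z) ≅ coind_C^Q res_C (toRep Z)` (projection formula);
* **`rep_eq_zero_of_cyclic`**, `rep_eq_zero_of_cyclic'`.
-/
import Mathlib
import Fermat.Agent.S56.GEC.Induction.Main

set_option autoImplicit false
set_option linter.unusedSectionVars false
set_option linter.style.haveILetI false

noncomputable section

namespace Fermat.Agent.S56.GEC.Induction

open Subgroup Representation CategoryTheory TensorProduct

variable {Q : Type} [Group Q] (p : ℕ)

/-! ### From `ℤ[Q]`-modules killed by `p` to `Rep (ZMod p) Q` -/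

section ToRep

variable (T T' T'' : Type) [AddCommGroup T] [Module (MonoidAlgebra ℤ Q) T] [PTors p T]
  [AddCommGroup T'] [Module (MonoidAlgebra ℤ Q) T'] [PTors p T']
  [AddCommGroup T''] [Module (MonoidAlgebra ℤ Q) T''] [PTors p T'']

/-- The `ZMod p`-module structure of a group killed by `p`. -/
abbrev zmodMod : Module (ZMod p) T := AddCommGroup.zmodModule (PTors.nsmul_eq_zero (p := p))

variable (Q) in
/-- The `ZMod p`-linear representation of `Q` on a `ℤ[Q]`-module killed by `p`. -/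
def toRepρ : @Representation (ZMod p) Q T _ _ _ (zmodMod p T) :=
  letI := zmodMod p T
  { toFun := fun g => (repOf T g).toAddMonoidHom.toZModLinearMap p
    map_one' := by
      ext t
      show repOf T (1 : Q) t = t
      rw [map_one]; rfl
    map_mul' := fun g h => by
      ext t
      show repOf T (g * h) t = repOf T g (repOf T h t)
      rw [map_mul]; rfl }

variable (Q) in
/-- A `ℤ[Q]`-module killed by `p` as an object of `Rep (ZMod p) Q`. -/
def toRep : Rep (ZMod p) Q :=
  letI := zmodMod p T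
  Rep.of (toRepρ Q p T)

theorem toRep_ρ_apply (g : Q) (t : T) :
    (toRep Q p T).ρ g t = (MonoidAlgebra.single g (1 : ℤ) : MonoidAlgebra ℤ Q) • t := rfl

instance toRep_finite [Finite T] : Module.Finite (ZMod p) (toRep Q p T) := by
  letI := zmodMod p T
  exact (Module.Finite.of_finite : Module.Finite (ZMod p) T)

variable {T T' T''}

/-- A `ℤ[Q]`-linear map as a morphism of `Rep (ZMod p) Q`. -/
def toRepHom (φ : T →ₗ[MonoidAlgebra ℤ Q] T') : toRep Q p T ⟶ toRep Q p T' :=
  letI := zmodMod p T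
  letI := zmodMod p T'
  Rep.ofHom (ρ := toRepρ Q p T) (σ := toRepρ Q p T')
    ⟨φ.toAddMonoidHom.toZModLinearMap p, fun g => LinearMap.ext fun t => by
      show φ ((MonoidAlgebra.single g (1 : ℤ) : MonoidAlgebra ℤ Q) • t) =
        (MonoidAlgebra.single g (1 : ℤ) : MonoidAlgebra ℤ Q) • φ t
      rw [map_smul]⟩

theorem toRepHom_apply (φ : T →ₗ[MonoidAlgebra ℤ Q] T') (t : T) :
    (toRepHom p φ).hom t = φ t := rfl

/-- A `ℤ[Q]`-linear equivalence as an isomorphism of `Rep (ZMod p) Q`. -/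
def toRepIso (e : T ≃ₗ[MonoidAlgebra ℤ Q] T') : toRep Q p T ≅ toRep Q p T' :=
  letI := zmodMod p T
  letI := zmodMod p T'
  Rep.mkIso (ρ := toRepρ Q p T) (σ := toRepρ Q p T')
    (Representation.Equiv.mk
      { e.toAddEquiv with map_smul' := fun c t => ZMod.map_smul e.toAddMonoidHom c t }
      (fun g => LinearMap.ext fun t => by
        show e ((MonoidAlgebra.single g (1 : ℤ) : MonoidAlgebra ℤ Q) • t) =
          (MonoidAlgebra.single g (1 : ℤ) : MonoidAlgebra ℤ Q) • e t
        rw [map_smul]))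

end ToRep

/-! ### From `Rep (ZMod p) Q` to `ℤ[Q]`-modules -/

section OfRep

variable {p} [Fact p.Prime]

/-- The `ℤ`-linear representation underlying an object of `Rep (ZMod p) Q`. -/
def intRep (Z : Rep (ZMod p) Q) : Representation ℤ Q Z.V where
  toFun g := (Z.ρ g).toAddMonoidHom.toIntLinearMap
  map_one' := by
    ext z
    show Z.ρ 1 z = z
    rw [map_one]; rfl
  map_mul' g h := by
    ext z
    show Z.ρ (g * h) z = Z.ρ g (Z.ρ h z)
    rw [map_mul]; rfl

/-- The `ℤ[Q]`-module underlying an object of `Rep (ZMod p) Q`. -/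
abbrev ModOf (Z : Rep (ZMod p) Q) : Type := (intRep Z).asModule

instance modOf_pTors (Z : Rep (ZMod p) Q) : PTors p (ModOf Z) :=
  ⟨fun z => by
    apply (intRep Z).asModuleEquiv.injective
    rw [map_nsmul, map_zero, ← Nat.cast_smul_eq_nsmul (ZMod p), ZMod.natCast_self, zero_smul]⟩

instance modOf_finite (Z : Rep (ZMod p) Q) [Module.Finite (ZMod p) Z] : Finite (ModOf Z) := by
  haveI : NeZero p := ⟨(Fact.out : p.Prime).ne_zero⟩
  haveI : Finite Z.V := Module.finite_of_finite (ZMod p)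
  exact Finite.of_equiv _ (intRep Z).asModuleEquiv.symm.toEquiv

/-- `toRep (ModOf Z) ≅ Z`. -/
def modOfIso (Z : Rep (ZMod p) Q) : toRep Q p (ModOf Z) ≅ Z :=
  letI := zmodMod p (ModOf Z)
  Rep.mkIso (ρ := toRepρ Q p (ModOf Z)) (σ := Z.ρ)
    (Representation.Equiv.mk
      { (intRep Z).asModuleEquiv.toAddEquiv with
        map_smul' := fun c t => ZMod.map_smul (intRep Z).asModuleEquiv.toAddMonoidHom c t }
      (fun g => LinearMap.ext fun t => by
        show (intRep Z).asModuleEquiv ((MonoidAlgebra.single g (1 : ℤ) : MonoidAlgebra ℤ Q) • t) =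
          Z.ρ g ((intRep Z).asModuleEquiv t)
        rw [single_smul_asModule]; rfl))

end OfRep

/-! ### Additive invariants from functions on `Rep (ZMod p) Q` -/

section OfRepFun

variable {p} [Fact p.Prime]

/-- Elementwise criterion for short exactness in `Rep`. -/
theorem rep_shortExact_of_elementwise' {k G : Type} [CommRing k] [Monoid G]
    (X : ShortComplex (Rep.{0} k G)) (hf : Function.Injective X.f.hom)
    (hg : Function.Surjective X.g.hom)
    (hex : ∀ b : X.X₂, X.g.hom b = 0 → ∃ a : X.X₁, X.f.hom a = b) : X.ShortExact := by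
  have h1 : Mono X.f := (Rep.mono_iff_injective X.f).2 hf
  have h2 : Epi X.g := (Rep.epi_iff_surjective X.g).2 hg
  refine ShortComplex.ShortExact.mk' ?_ h1 h2
  rw [← ShortComplex.exact_map_iff_of_faithful X (forget₂ (Rep k G) (ModuleCat k)),
    ShortComplex.moduleCat_exact_iff]
  intro b hb
  exact hex b hb

variable (p) in
/-- The short complex `S → T → T ⧸ S` in `Rep (ZMod p) Q`. -/
def subQuotComplex (T : Type) [AddCommGroup T] [Module (MonoidAlgebra ℤ Q) T] [PTors p T]
    (S : Submodule (MonoidAlgebra ℤ Q) T) : ShortComplex (Rep (ZMod p) Q) :=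
  ShortComplex.mk (toRepHom p S.subtype) (toRepHom p S.mkQ) (by
    refine Rep.hom_ext (Representation.IntertwiningMap.ext (LinearMap.ext fun s => ?_))
    show S.mkQ (S.subtype s) = 0
    simp)

theorem subQuotComplex_shortExact (T : Type) [AddCommGroup T] [Module (MonoidAlgebra ℤ Q) T]
    [PTors p T] (S : Submodule (MonoidAlgebra ℤ Q) T) : (subQuotComplex p T S).ShortExact := by
  refine rep_shortExact_of_elementwise' _ ?_ ?_ ?_
  · exact S.subtype_injective
  · exact S.mkQ_surjective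
  · intro b hb
    have hb' : S.mkQ b = 0 := hb
    exact ⟨⟨b, (Submodule.Quotient.mk_eq_zero S).1 hb'⟩, rfl⟩

variable (f : Rep (ZMod p) Q → ℤ)
  (hiso : ∀ (N N' : Rep (ZMod p) Q) [Module.Finite (ZMod p) N] [Module.Finite (ZMod p) N'],
    (N ≅ N') → f N = f N')
  (hadd : ∀ (X : ShortComplex (Rep (ZMod p) Q)) [Module.Finite (ZMod p) X.X₁]
    [Module.Finite (ZMod p) X.X₂] [Module.Finite (ZMod p) X.X₃], X.ShortExact →
    f X.X₂ = f X.X₁ + f X.X₃)

open Classical in
/-- The value on a `ℤ[Q]`-module: `f (toRep T)` if `T` is killed by `p`, `0` otherwise. -/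
def repFunVal (T : Type) [AddCommGroup T] [Module (MonoidAlgebra ℤ Q) T] : ℤ :=
  if h : ∀ t : T, p • t = 0 then f (@toRep Q _ p T _ _ ⟨h⟩) else 0

theorem repFunVal_eq (T : Type) [AddCommGroup T] [Module (MonoidAlgebra ℤ Q) T] [hT : PTors p T] :
    repFunVal f T = f (toRep Q p T) := by
  unfold repFunVal
  rw [dif_pos (fun t => PTors.nsmul_eq_zero t)]

/-- **The additive invariant attached to an additive, isomorphism invariant function on
`Rep (ZMod p) Q`.** -/
def AddInv.ofRepFun : AddInv (MonoidAlgebra ℤ Q) p where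
  f T _ _ := repFunVal f T
  iso {T T'} _ _ _ _ _ _ e := by
    haveI : PTors p T' := PTors.of_linearEquiv e
    haveI : Finite T' := Finite.of_equiv T e.toEquiv
    rw [repFunVal_eq, repFunVal_eq]
    exact hiso _ _ (toRepIso p e)
  add {T} _ _ _ _ S := by
    rw [repFunVal_eq, repFunVal_eq, repFunVal_eq]
    haveI : Module.Finite (ZMod p) (subQuotComplex p T S).X₁ := toRep_finite p S
    haveI : Module.Finite (ZMod p) (subQuotComplex p T S).X₂ := toRep_finite p T
    haveI : Module.Finite (ZMod p) (subQuotComplex p T S).X₃ := toRep_finite p (T ⧸ S)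
    exact hadd (subQuotComplex p T S) (subQuotComplex_shortExact T S)

theorem AddInv.ofRepFun_f (T : Type) [AddCommGroup T] [Module (MonoidAlgebra ℤ Q) T] [PTors p T] :
    (AddInv.ofRepFun f hiso hadd).f T = f (toRep Q p T) := repFunVal_eq f T

end OfRepFun

/-! ### `𝔽_p[X] ⊗ Z ≃ (X → Z)` -/

section Proj

variable {p} [Fact p.Prime] (X : Type) [MulAction Q X]
  (Z : Type) [AddCommGroup Z] [Module (MonoidAlgebra ℤ Q) Z] [PTors p Z]

theorem zmod_smul_eq_val_nsmul (c : ZMod p) (z : Z) :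
    letI := zmodMod p Z
    c • z = c.val • z := by
  letI := zmodMod p Z
  conv_lhs => rw [← ZMod.natCast_zmod_val c]
  exact Nat.cast_smul_eq_nsmul (ZMod p) c.val z

variable (Q p) in
/-- `(v ⊗ z) ↦ (q ↦ v q • z)`. -/
def evT : (PermP Q X p ⊗[ℤ] Z) →+ (X → Z) :=
  letI : Module (ZMod p) Z := zmodMod p Z
  let f : (X →₀ ZMod p) →+ Z →+ (X → Z) :=
    { toFun := fun v =>
        { toFun := fun z q => v q • z
          map_zero' := by funext q; simp
          map_add' := fun z z' => by funext q; simp [smul_add] }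
      map_zero' := by ext z q; simp
      map_add' := fun v v' => by ext z q; simp [add_smul] }
  have hf : ∀ (r : ℤ) (v : X →₀ ZMod p) (z : Z), f (r • v) z = f v (r • z) := fun r v z => by
    funext q
    show (r • v) q • z = v q • (r • z)
    rw [Finsupp.smul_apply, smul_assoc, smul_comm]
  TensorProduct.liftAddHom f hf

theorem evT_tmul (v : PermP Q X p) (z : Z) (q : X) :
    evT Q p X Z (v ⊗ₜ[ℤ] z) q = (coeffFn v q).val • z := by
  letI : Module (ZMod p) Z := zmodMod p Z
  show (coeffFn v q) • z = _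
  exact zmod_smul_eq_val_nsmul Z _ z

variable [Fintype X]

variable (Q p) in
/-- The basis element `[q]` of `𝔽_p[X]`. -/
def basisElt (q : X) : PermP Q X p := ofCoeffFn Q (Finsupp.single q (1 : ZMod p))

theorem coeffFn_basisElt (q q' : X) [Decidable (q = q')] :
    coeffFn (basisElt Q p X q) q' = if q = q' then 1 else 0 := by
  show (Finsupp.single q (1 : ZMod p)) q' = _
  rw [Finsupp.single_apply]

theorem sum_val_smul_basisElt (v : PermP Q X p) : ∑ q, (coeffFn v q).val • basisElt Q p X q = v := by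
  classical
  apply coeffFn_injective
  have h1 : coeffFn (∑ q, (coeffFn v q).val • basisElt Q p X q) =
      ∑ q, (coeffFn v q).val • (Finsupp.single q (1 : ZMod p)) := rfl
  rw [h1]
  apply Finsupp.ext
  intro q'
  rw [Finsupp.finsetSum_apply, Finset.sum_eq_single q']
  · rw [Finsupp.smul_apply, Finsupp.single_eq_same, nsmul_eq_mul, mul_one, ZMod.natCast_zmod_val]
  · intro q _ hq
    rw [Finsupp.smul_apply, Finsupp.single_apply, if_neg hq, smul_zero]
  · intro h
    exact absurd (Finset.mem_univ _) h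

variable (Q p) in
/-- `φ ↦ ∑ q, [q] ⊗ φ q`. -/
def invT : (X → Z) →+ (PermP Q X p ⊗[ℤ] Z) where
  toFun φ := ∑ q, (basisElt Q p X q) ⊗ₜ[ℤ] φ q
  map_zero' := by simp
  map_add' φ ψ := by simp [tmul_add, Finset.sum_add_distrib]

theorem invT_evT (t : PermP Q X p ⊗[ℤ] Z) : invT Q p X Z (evT Q p X Z t) = t := by
  induction t using TensorProduct.induction_on with
  | zero => rw [map_zero, map_zero]
  | add a b ha hb => rw [map_add, map_add, ha, hb]
  | tmul v z =>
    show ∑ q, (basisElt Q p X q) ⊗ₜ[ℤ] (evT Q p X Z (v ⊗ₜ[ℤ] z) q) = _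
    simp_rw [evT_tmul, tmul_nsmul_eq]
    rw [← TensorProduct.sum_tmul, sum_val_smul_basisElt]

theorem evT_invT (φ : X → Z) : evT Q p X Z (invT Q p X Z φ) = φ := by
  classical
  funext q'
  show evT Q p X Z (∑ q, (basisElt Q p X q) ⊗ₜ[ℤ] φ q) q' = _
  rw [map_sum, Finset.sum_apply]
  simp_rw [evT_tmul, coeffFn_basisElt]
  rw [Finset.sum_eq_single q']
  · rw [if_pos rfl, ZMod.val_one, one_smul]
  · intro q _ hq
    rw [if_neg hq, ZMod.val_zero, zero_smul]
  · intro h
    exact absurd (Finset.mem_univ _) h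

end Proj
/-! ### The projection formula `𝔽_p[Q ⧸ C] ⊗ Z ≃ coind_C^Q res_C Z` -/

section Coind

variable {p} [Fact p.Prime] (C : Subgroup Q)
  (Z : Type) [AddCommGroup Z] [Module (MonoidAlgebra ℤ Q) Z] [PTors p Z]

local notation "𝐬" g:max => (MonoidAlgebra.single g (1 : ℤ) : MonoidAlgebra ℤ Q)

theorem single_smul_single_smul (g h : Q) (z : Z) : 𝐬 (g) • (𝐬 (h) • z) = 𝐬 (g * h) • z := by
  rw [← mul_smul, MonoidAlgebra.single_mul_single, mul_one]

theorem single_one_smul (z : Z) : 𝐬 ((1 : Q)) • z = z := by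
  rw [← MonoidAlgebra.one_def, one_smul]

theorem mem_coindV_iff (f : Q → Z) :
    f ∈ coindV C.subtype (Rep.res C.subtype (toRep Q p Z)).ρ ↔
      ∀ c ∈ C, ∀ x : Q, f (c * x) = 𝐬 (c) • f x :=
  ⟨fun h c hc x => h ⟨c, hc⟩ x, fun h c x => h c.1 c.2 x⟩

/-- `φ ↦ (x ↦ x • φ (x⁻¹ C))`. -/
def coindFun (φ : Q ⧸ C → Z) : Q → Z := fun x => 𝐬 (x) • φ (QuotientGroup.mk x⁻¹)

/-- `f ↦ (gC ↦ g • f g⁻¹)`. -/
def coindInv (f : Q → Z) : Q ⧸ C → Z := fun q => 𝐬 (Quotient.out q) • f (Quotient.out q)⁻¹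

theorem coindFun_mem (φ : Q ⧸ C → Z) :
    coindFun C Z φ ∈ coindV C.subtype (Rep.res C.subtype (toRep Q p Z)).ρ := by
  rw [mem_coindV_iff]
  intro c hc x
  show 𝐬 (c * x) • φ (QuotientGroup.mk (c * x)⁻¹) = 𝐬 (c) • (𝐬 (x) • φ (QuotientGroup.mk x⁻¹))
  have h : (QuotientGroup.mk (c * x)⁻¹ : Q ⧸ C) = QuotientGroup.mk x⁻¹ := by
    apply QuotientGroup.eq.2
    rw [inv_inv, mul_assoc, mul_inv_cancel, mul_one]
    exact hc
  rw [h, single_smul_single_smul]

theorem coindInv_coindFun (φ : Q ⧸ C → Z) : coindInv C Z (coindFun C Z φ) = φ := by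
  funext q
  show 𝐬 (Quotient.out q) • (𝐬 ((Quotient.out q)⁻¹) • φ (QuotientGroup.mk ((Quotient.out q)⁻¹)⁻¹)) = φ q
  rw [inv_inv, QuotientGroup.out_eq', single_smul_single_smul, mul_inv_cancel, single_one_smul]

theorem coindFun_coindInv (f : Q → Z)
    (hf : f ∈ coindV C.subtype (Rep.res C.subtype (toRep Q p Z)).ρ) :
    coindFun C Z (coindInv C Z f) = f := by
  rw [mem_coindV_iff] at hf
  funext x
  set g : Q := Quotient.out (QuotientGroup.mk x⁻¹ : Q ⧸ C) with hg
  show 𝐬 (x) • (𝐬 (g) • f g⁻¹) = f x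
  have hc : x * g ∈ C := by
    have h1 : (QuotientGroup.mk g : Q ⧸ C) = QuotientGroup.mk x⁻¹ := QuotientGroup.out_eq' _
    have h2 := QuotientGroup.eq.1 h1.symm
    rwa [inv_inv] at h2
  have h3 : g⁻¹ = (x * g)⁻¹ * x := by group
  have h4 := hf _ (inv_mem hc) x
  rw [← h3] at h4
  rw [h4, single_smul_single_smul, single_smul_single_smul, mul_inv_cancel, single_one_smul]

variable [Finite Q]

/-- The projection formula, additively. -/
def projAddEquiv :
    TZ Q (PermP Q (Q ⧸ C) p) Z ≃+ coindV C.subtype (Rep.res C.subtype (toRep Q p Z)).ρ :=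
  letI : Fintype (Q ⧸ C) := Fintype.ofFinite _
  { toFun := fun t => ⟨coindFun C Z (evT Q p (Q ⧸ C) Z (TZ.toTensor t)), coindFun_mem C Z _⟩
    invFun := fun f => TZ.ofTensor (invT Q p (Q ⧸ C) Z (coindInv C Z f.1))
    left_inv := fun t => by
      show TZ.ofTensor (invT Q p (Q ⧸ C) Z (coindInv C Z (coindFun C Z _))) = t
      rw [coindInv_coindFun, invT_evT]
      rfl
    right_inv := fun f => by
      apply Subtype.ext
      show coindFun C Z (evT Q p (Q ⧸ C) Z (invT Q p (Q ⧸ C) Z (coindInv C Z f.1))) = f.1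
      rw [evT_invT, coindFun_coindInv C Z f.1 f.2]
    map_add' := fun a b => by
      apply Subtype.ext
      funext x
      show 𝐬 (x) • (evT Q p (Q ⧸ C) Z (TZ.toTensor a + TZ.toTensor b)) (QuotientGroup.mk x⁻¹) =
        𝐬 (x) • (evT Q p (Q ⧸ C) Z (TZ.toTensor a)) (QuotientGroup.mk x⁻¹) +
        𝐬 (x) • (evT Q p (Q ⧸ C) Z (TZ.toTensor b)) (QuotientGroup.mk x⁻¹)
      rw [map_add, Pi.add_apply, smul_add] }

theorem projAddEquiv_apply (t : TZ Q (PermP Q (Q ⧸ C) p) Z) (x : Q) :
    letI : Fintype (Q ⧸ C) := Fintype.ofFinite _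
    (projAddEquiv C Z t).1 x = 𝐬 (x) • evT Q p (Q ⧸ C) Z (TZ.toTensor t) (QuotientGroup.mk x⁻¹) := rfl

theorem projAddEquiv_single_smul (g : Q) (t : TZ Q (PermP Q (Q ⧸ C) p) Z) (x : Q) :
    (projAddEquiv C Z (𝐬 (g) • t)).1 x = (projAddEquiv C Z t).1 (x * g) := by
  rw [projAddEquiv_apply, projAddEquiv_apply, TZ.single_smul]
  induction TZ.toTensor t using TensorProduct.induction_on with
  | zero => rw [map_zero, map_zero, Pi.zero_apply, Pi.zero_apply, smul_zero, smul_zero]
  | add a b ha hb => rw [map_add, map_add, map_add, Pi.add_apply, Pi.add_apply, smul_add, smul_add, ha, hb]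
  | tmul v z =>
    rw [TensorProduct.map_tmul, evT_tmul, evT_tmul, repOf_apply, repOf_apply, coeffFn_single_smul]
    have h1 : (QuotientGroup.mk x⁻¹ : Q ⧸ C) = g • (QuotientGroup.mk (x * g)⁻¹ : Q ⧸ C) := by
      show _ = (QuotientGroup.mk (g * (x * g)⁻¹) : Q ⧸ C)
      congr 1
      group
    rw [h1, permRep_apply_apply, smul_comm, single_smul_single_smul, smul_comm]

/-- **The projection formula** `𝔽_p[Q ⧸ C] ⊗ Z ≅ coind_C^Q res_C Z` in `Rep (ZMod p) Q`. -/
def projIso : toRep Q p (TZ Q (PermP Q (Q ⧸ C) p) Z) ≅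
    Rep.coind C.subtype (Rep.res C.subtype (toRep Q p Z)) :=
  letI := zmodMod p (TZ Q (PermP Q (Q ⧸ C) p) Z)
  Rep.mkIso (ρ := toRepρ Q p (TZ Q (PermP Q (Q ⧸ C) p) Z))
    (σ := Representation.coind C.subtype (Rep.res C.subtype (toRep Q p Z)).ρ)
    (Representation.Equiv.mk
      { projAddEquiv C Z with
        map_smul' := fun c t => ZMod.map_smul (projAddEquiv C Z).toAddMonoidHom c t }
      (fun g => LinearMap.ext fun t => Subtype.ext (funext fun x =>
        projAddEquiv_single_smul C Z g t x)))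

end Coind

/-! ### The induction theorem in `Rep (ZMod p) Q` -/

section Final

variable {p} [Fact p.Prime] [Finite Q]

instance coind_finite (C : Subgroup Q) (N : Rep.{0} (ZMod p) Q) [Module.Finite (ZMod p) N] :
    Module.Finite (ZMod p) (Rep.coind C.subtype (Rep.res C.subtype N)) := by
  haveI : NeZero p := ⟨(Fact.out : p.Prime).ne_zero⟩
  haveI : Finite N.V := Module.finite_of_finite (ZMod p)
  haveI : Finite (Q → N.V) := Pi.finite
  haveI : Finite ↥(coindV C.subtype (Rep.res C.subtype N).ρ) := Subtype.finite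
  exact (Module.Finite.of_finite :
    Module.Finite (ZMod p) ↥(coindV C.subtype (Rep.res C.subtype N).ρ))

/-- **(T1) The induction theorem, `Rep` form.**  Let `Q` be a finite group and `f` an isomorphism
invariant function on `Rep.{0} (ZMod p) Q`, additive on short exact sequences of finite dimensional
representations.  If `f (coind_{⟨τ⟩}^Q res_{⟨τ⟩} Z) = 0` for every `τ : Q` of order prime to `p` and
every finite dimensional `Z`, then `f Z = 0` for every finite dimensional `Z`. -/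
theorem rep_eq_zero_of_cyclic (f : Rep.{0} (ZMod p) Q → ℤ)
    (hiso : ∀ (N N' : Rep.{0} (ZMod p) Q) [Module.Finite (ZMod p) N] [Module.Finite (ZMod p) N'],
      (N ≅ N') → f N = f N')
    (hadd : ∀ (X : ShortComplex (Rep.{0} (ZMod p) Q)) [Module.Finite (ZMod p) X.X₁]
      [Module.Finite (ZMod p) X.X₂] [Module.Finite (ZMod p) X.X₃], X.ShortExact →
      f X.X₂ = f X.X₁ + f X.X₃)
    (hcyc : ∀ τ : Q, ¬ p ∣ orderOf τ → ∀ (Z : Rep.{0} (ZMod p) Q) [Module.Finite (ZMod p) Z],
      f (Rep.coind (zpowers τ).subtype (Rep.res (zpowers τ).subtype Z)) = 0)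
    (Z : Rep.{0} (ZMod p) Q) [Module.Finite (ZMod p) Z] : f Z = 0 := by
  have key := (AddInv.ofRepFun f hiso hadd).eq_zero_of_cyclic (fun τ hτ Z' _ _ _ _ => ?_) (ModOf Z)
  · rw [AddInv.ofRepFun_f] at key
    rw [← hiso _ _ (modOfIso Z)]
    exact key
  · haveI : Finite (TZ Q (PermP Q (Q ⧸ zpowers τ) p) Z') :=
      TZ.finite p (Fact.out : p.Prime).ne_zero
    rw [AddInv.ofRepFun_f, hiso _ _ (projIso (zpowers τ) Z')]
    exact hcyc τ hτ (toRep Q p Z')

/-- The same with arbitrary cyclic subgroups of order prime to `p`. -/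
theorem rep_eq_zero_of_cyclic' (f : Rep.{0} (ZMod p) Q → ℤ)
    (hiso : ∀ (N N' : Rep.{0} (ZMod p) Q) [Module.Finite (ZMod p) N] [Module.Finite (ZMod p) N'],
      (N ≅ N') → f N = f N')
    (hadd : ∀ (X : ShortComplex (Rep.{0} (ZMod p) Q)) [Module.Finite (ZMod p) X.X₁]
      [Module.Finite (ZMod p) X.X₂] [Module.Finite (ZMod p) X.X₃], X.ShortExact →
      f X.X₂ = f X.X₁ + f X.X₃)
    (hcyc : ∀ C : Subgroup Q, IsCyclic C → ¬ p ∣ Nat.card C →
      ∀ (Z : Rep.{0} (ZMod p) Q) [Module.Finite (ZMod p) Z],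
        f (Rep.coind C.subtype (Rep.res C.subtype Z)) = 0)
    (Z : Rep.{0} (ZMod p) Q) [Module.Finite (ZMod p) Z] : f Z = 0 :=
  rep_eq_zero_of_cyclic f hiso hadd (fun τ hτ Z' _ =>
    hcyc (zpowers τ) inferInstance (by rwa [Nat.card_zpowers]) Z') Z

end Final

end Fermat.Agent.S56.GEC.Induction
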