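/-
S56 / GEC / (T1), `Rep` form with implicit binders (helper1): the statement of
`rep_eq_zero_of_cyclic` (`Induction/RepForm.lean`) with `hiso`, `hadd` taking their objects implicitly
and `FiniteDimensional` spelled out, for consumers typed against that shape.
-/
import Mathlib
import Fermat.Agent.S56.GEC.Induction.RepForm

set_option autoImplicit false

namespace Fermat.Agent.S56.GEC.Induction

open CategoryTheory

/-- `rep_eq_zero_of_cyclic` with implicit binders in `hiso`, `hadd`. -/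
theorem rep_eq_zero_of_cyclic_implicit {Q : Type} [Group Q] [Finite Q] {p : ℕ} [Fact p.Prime]
    (f : Rep.{0} (ZMod p) Q → ℤ)
    (hiso : ∀ {N N' : Rep.{0} (ZMod p) Q} [FiniteDimensional (ZMod p) N]
      [FiniteDimensional (ZMod p) N'], (N ≅ N') → f N = f N')
    (hadd : ∀ {X : ShortComplex (Rep.{0} (ZMod p) Q)} [FiniteDimensional (ZMod p) X.X₁]
      [FiniteDimensional (ZMod p) X.X₂] [FiniteDimensional (ZMod p) X.X₃], X.ShortExact →
      f X.X₂ = f X.X₁ + f X.X₃)
    (hcyc : ∀ τ : Q, ¬ p ∣ orderOf τ → ∀ (Z : Rep.{0} (ZMod p) Q) [FiniteDimensional (ZMod p) Z],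
      f (Rep.coind (Subgroup.zpowers τ).subtype (Rep.res (Subgroup.zpowers τ).subtype Z)) = 0)
    (Z : Rep.{0} (ZMod p) Q) [FiniteDimensional (ZMod p) Z] : f Z = 0 :=
  rep_eq_zero_of_cyclic f (fun _ _ _ _ e => hiso e) (fun _ _ _ _ hX => hadd hX)
    (fun τ hτ Z' _ => hcyc τ hτ Z') Z

end Fermat.Agent.S56.GEC.Induction
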