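/-
S56 / GEC, leaf D2a (helper4): **Artin's induction theorem for permutation modules**, in the form the
(T1) block (helper1: `S56/GEC/Induction/{AddInv,Perm,PPart,Main}.lean`) consumes.  Mathlib only; no
`ℂ`, no Möbius function.

* `nonempty_equiv_of_character_eq` : over a field of characteristic zero, two finite-dimensional
  representations of a finite group with the same character are equivalent (induction on the
  dimension: a minimal stable subspace `S ≤ V`; `dim Hom_G(S, W) = ⟨χ_S, χ_W⟩ = ⟨χ_S, χ_V⟩ =
  dim Hom_G(S, V) ≥ 1` by Mathlib's `Representation.card_inv_mul_sum_char_mul_char_eq_finrank`,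
  valid over any field in which `|G|` is invertible; Maschke complements on both sides);
* `character_ofMulAction` : the character of a permutation representation counts fixed points;
* `exists_equiv_of_fixedBy_eq` : finite `G`-sets with the same fixed-point counts have equivalent
  permutation representations over a field of characteristic zero;
* `exists_artin` : **Artin's identity** `|G| + Σ_i π_{C_i} = Σ_j π_{D_j}` for two finite families of
  cyclic subgroups, `π_D (g) = #(G ⧸ D)^g` (`Θ_C (g) := #{x | ⟨x⁻¹ g x⟩ = C}`;
  `|C| π_C = Σ_{D ≤ C} Θ_D`, so by induction on `C` every `Θ_C` is an integral combination of the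
  `π_D`, `D ≤ C` cyclic; `Σ_C Θ_C = |G|`).
-/
import Mathlib

set_option autoImplicit false
set_option linter.unusedSectionVars false
set_option linter.style.haveILetI false

open Module

noncomputable section

namespace Fermat.Agent.S56.GEC.Induction.Artin

open Representation
open scoped MonoidAlgebra

section Basic

variable {k G : Type*} [Field k] [Group G]
variable {V W V' W' : Type*} [AddCommGroup V] [Module k V] [AddCommGroup W] [Module k W]
  [AddCommGroup V'] [Module k V'] [AddCommGroup W'] [Module k W']

/-- character of a product -/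
theorem char_prod [FiniteDimensional k V] [FiniteDimensional k W]
    (ρ : Representation k G V) (σ : Representation k G W) :
    (ρ.prod σ).character = ρ.character + σ.character := by
  ext g
  simp only [character, Pi.add_apply]
  rw [show (ρ.prod σ) g = (ρ g).prodMap (σ g) from rfl, LinearMap.trace_prodMap']

/-- a representation is the product of two complementary stable subspaces -/
def prodEquivOfIsCompl (ρ : Representation k G V) {S T : Submodule k V}
    (hS : ∀ g, S ≤ S.comap (ρ g)) (hT : ∀ g, T ≤ T.comap (ρ g)) (h : IsCompl S T) :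
    ((ρ.subrepresentation S hS).prod (ρ.subrepresentation T hT)).Equiv ρ :=
  Representation.Equiv.mk (Submodule.prodEquivOfIsCompl S T h) (fun g => by
    ext ⟨s, hs⟩
    · simp
    · simp)

/-- products of equivalent representations are equivalent -/
def prodCongr {ρ : Representation k G V} {σ : Representation k G W}
    {ρ' : Representation k G V'} {σ' : Representation k G W'}
    (e : ρ.Equiv σ) (e' : ρ'.Equiv σ') : (ρ.prod ρ').Equiv (σ.prod σ') :=
  Representation.Equiv.mk (LinearEquiv.prodCongr e.toLinearEquiv e'.toLinearEquiv) (fun g => by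
    ext v
    · simp [IntertwiningMap.isIntertwining ρ σ e.toIntertwiningMap]
    · simp
    · simp
    · simp [IntertwiningMap.isIntertwining ρ' σ' e'.toIntertwiningMap])

/-- the range of an intertwining map is stable -/
theorem range_stable {ρ : Representation k G V} {σ : Representation k G W}
    (f : IntertwiningMap ρ σ) (g : G) :
    LinearMap.range f.toLinearMap ≤ (LinearMap.range f.toLinearMap).comap (σ g) := by
  rintro _ ⟨v, rfl⟩
  exact ⟨ρ g v, IntertwiningMap.isIntertwining ρ σ f g v⟩

/-- an injective intertwining map is an equivalence onto its range -/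
def equivRange {ρ : Representation k G V} {σ : Representation k G W}
    (f : IntertwiningMap ρ σ) (hf : Function.Injective f) :
    ρ.Equiv (σ.subrepresentation (LinearMap.range f.toLinearMap) (range_stable f)) :=
  Representation.Equiv.mk (LinearEquiv.ofInjective f.toLinearMap hf) (fun g => by
    ext v
    simp [IntertwiningMap.isIntertwining ρ σ f])

/-- **Maschke**: a stable subspace has a stable complement. -/
theorem exists_stable_isCompl [Finite G] [NeZero (Nat.card G : k)] (ρ : Representation k G V)
    {S : Submodule k V} (hS : ∀ g, S ≤ S.comap (ρ g)) :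
    ∃ T : Submodule k V, (∀ g, T ≤ T.comap (ρ g)) ∧ IsCompl S T := by
  let p : Submodule k[G] ρ.asModule :=
    Subrepresentation.asSubmodule (ρ := ρ) ⟨S, fun g v hv => hS g hv⟩
  obtain ⟨q, hq⟩ := MonoidAlgebra.Submodule.exists_isCompl p
  refine ⟨(Subrepresentation.ofSubmodule' q).toSubmodule,
    fun g v hv => (Subrepresentation.ofSubmodule' q).apply_mem_toSubmodule g hv, ?_⟩
  constructor
  · rw [Submodule.disjoint_def]
    intro v hvS hvT
    let v' : ρ.asModule := v
    have : v' ∈ p ⊓ q := ⟨hvS, hvT⟩
    rw [hq.inf_eq_bot] at this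
    exact this
  · rw [codisjoint_iff, eq_top_iff]
    intro v _
    let v' : ρ.asModule := v
    have : v' ∈ p ⊔ q := by rw [hq.sup_eq_top]; trivial
    obtain ⟨a, ha, b, hb, hab⟩ := Submodule.mem_sup.mp this
    exact Submodule.mem_sup.mpr ⟨a, ha, b, hb, hab⟩

/-- the space of intertwining maps between finite-dimensional representations is
finite-dimensional -/
theorem finite_intertwiningMap [FiniteDimensional k V] [FiniteDimensional k W]
    (ρ : Representation k G V) (σ : Representation k G W) :
    Module.Finite k (IntertwiningMap ρ σ) :=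
  Module.Finite.equiv (invariantsEquivIntertwiningMap ρ σ)

/-- a minimal nonzero stable subspace -/
theorem exists_minimal_stable [FiniteDimensional k V] [Nontrivial V] (ρ : Representation k G V) :
    ∃ S : Submodule k V, (∀ g, S ≤ S.comap (ρ g)) ∧ S ≠ ⊥ ∧
      ∀ S' : Submodule k V, (∀ g, S' ≤ S'.comap (ρ g)) → S' ≠ ⊥ → S' ≤ S → S' = S := by
  classical
  have hex : ∃ n : ℕ, ∃ S : Submodule k V, (∀ g, S ≤ S.comap (ρ g)) ∧ S ≠ ⊥ ∧ finrank k S = n :=
    ⟨_, ⊤, fun g => le_top, top_ne_bot, rfl⟩
  obtain ⟨S, hS, hS0, hSn⟩ := Nat.find_spec hex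
  refine ⟨S, hS, hS0, fun S' hS' hS'0 hle => ?_⟩
  have h1 : Nat.find hex ≤ finrank k S' := Nat.find_min' hex ⟨S', hS', hS'0, rfl⟩
  have h2 : finrank k S' ≤ finrank k S := Submodule.finrank_mono hle
  exact Submodule.eq_of_le_of_finrank_eq hle (le_antisymm h2 (hSn ▸ h1))

end Basic

section Main

universe u v

variable {k G : Type*} [Field k] [CharZero k] [Group G] [Finite G]

/-- a nonzero intertwining map out of a minimal stable subspace is injective -/
theorem injective_of_minimal {V : Type*} {W : Type*} [AddCommGroup V] [Module k V]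
    [AddCommGroup W] [Module k W] (ρ : Representation k G V) (σ : Representation k G W)
    {S : Submodule k V} (hS : ∀ g, S ≤ S.comap (ρ g))
    (hmin : ∀ S' : Submodule k V, (∀ g, S' ≤ S'.comap (ρ g)) → S' ≠ ⊥ → S' ≤ S → S' = S)
    (f : IntertwiningMap (ρ.subrepresentation S hS) σ) (hf : f ≠ 0) : Function.Injective f := by
  let K : Submodule k V := (LinearMap.ker f.toLinearMap).map S.subtype
  have hKS : K ≤ S := by
    rintro _ ⟨x, _, rfl⟩
    exact x.2
  have hK : ∀ g, K ≤ K.comap (ρ g) := by
    rintro g _ ⟨x, hx, rfl⟩
    refine ⟨(ρ.subrepresentation S hS) g x, ?_, rfl⟩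
    have h1 := IntertwiningMap.isIntertwining _ _ f g x
    have hx' : f x = 0 := hx
    show f ((ρ.subrepresentation S hS) g x) = 0
    rw [h1, hx', map_zero]
  by_cases hK0 : K = ⊥
  · have hker : LinearMap.ker f.toLinearMap = ⊥ := by
      rw [eq_bot_iff]
      intro x hx
      have : S.subtype x ∈ K := ⟨x, hx, rfl⟩
      rw [hK0, Submodule.mem_bot] at this
      rw [Submodule.mem_bot]
      exact Subtype.ext this
    exact LinearMap.ker_eq_bot.mp hker
  · exfalso
    have hKeq := hmin K hK hK0 hKS
    apply hf
    ext x
    have : (x : V) ∈ K := by rw [hKeq]; exact x.2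
    obtain ⟨y, hy, hyx⟩ := this
    have hxy : y = x := Subtype.ext hyx
    subst hxy
    exact hy

/-- **Characters determine representations in characteristic zero** (induction step packaged
over the dimension). -/
theorem nonempty_equiv_of_character_eq_aux (n : ℕ) :
    ∀ {V : Type u} {W : Type v} [AddCommGroup V] [Module k V] [FiniteDimensional k V]
      [AddCommGroup W] [Module k W] [FiniteDimensional k W]
      (ρ : Representation k G V) (σ : Representation k G W),
      finrank k V = n → ρ.character = σ.character → Nonempty (ρ.Equiv σ) := by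
  induction n using Nat.strong_induction_on with
  | _ n ih =>
  intro V W _ _ _ _ _ _ ρ σ hn hχ
  haveI : Fintype G := Fintype.ofFinite G
  haveI : NeZero (Nat.card G : k) := ⟨Nat.cast_ne_zero.mpr Nat.card_pos.ne'⟩
  haveI : Invertible (Nat.card G : k) := invertibleOfNonzero (NeZero.ne _)
  have hdim : finrank k W = finrank k V := by
    have h1 := congrFun hχ 1
    rw [char_one, char_one] at h1
    exact (Nat.cast_injective h1).symm
  rcases subsingleton_or_nontrivial V with hV | hV
  · -- both spaces are zero
    haveI : Subsingleton W := by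
      rw [← Module.finrank_zero_iff (R := k), hdim, Module.finrank_zero_iff]
      exact hV
    exact ⟨Representation.Equiv.mk (LinearEquiv.ofSubsingleton V W)
      (fun g => LinearMap.ext fun v => Subsingleton.elim _ _)⟩
  · obtain ⟨S, hS, hS0, hmin⟩ := exists_minimal_stable ρ
    obtain ⟨S', hS', hSS'⟩ := exists_stable_isCompl ρ hS
    set ρS := ρ.subrepresentation S hS with hρS
    set ρS' := ρ.subrepresentation S' hS' with hρS'
    have e₁ : (ρS.prod ρS').Equiv ρ := prodEquivOfIsCompl ρ hS hS' hSS'
    -- a nonzero intertwining map `S → W`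
    haveI := finite_intertwiningMap ρS ρ
    haveI := finite_intertwiningMap ρS σ
    have hfr : finrank k (IntertwiningMap ρS σ) = finrank k (IntertwiningMap ρS ρ) := by
      have h1 := card_inv_mul_sum_char_mul_char_eq_finrank ρS σ
      have h2 := card_inv_mul_sum_char_mul_char_eq_finrank ρS ρ
      rw [← hχ, h2] at h1
      exact (Nat.cast_injective h1).symm
    have hpos : 0 < finrank k (IntertwiningMap ρS ρ) := by
      rw [Module.finrank_pos_iff_exists_ne_zero]
      refine ⟨⟨S.subtype, fun g => by ext x; simp [hρS]⟩, fun h0 => hS0 ?_⟩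
      rw [eq_bot_iff]
      intro x hx
      have : (⟨S.subtype, fun g => by ext x; simp [hρS]⟩ : IntertwiningMap ρS ρ) ⟨x, hx⟩ = 0 := by
        rw [h0]; rfl
      exact (Submodule.mem_bot k).mpr this
    rw [← hfr, Module.finrank_pos_iff_exists_ne_zero] at hpos
    obtain ⟨f, hf⟩ := hpos
    have hinj := injective_of_minimal ρ σ hS hmin f hf
    set T := LinearMap.range f.toLinearMap with hT
    have hTs : ∀ g, T ≤ T.comap (σ g) := range_stable f
    obtain ⟨T', hT', hTT'⟩ := exists_stable_isCompl σ hTs
    set σT := σ.subrepresentation T hTs with hσT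
    set σT' := σ.subrepresentation T' hT' with hσT'
    have e₂ : (σT.prod σT').Equiv σ := prodEquivOfIsCompl σ hTs hT' hTT'
    have e₃ : ρS.Equiv σT := equivRange f hinj
    -- characters
    have hχ' : ρS'.character = σT'.character := by
      have h1 : ρS.character + ρS'.character = σT.character + σT'.character := by
        rw [← char_prod, ← char_prod, char_iso e₁, char_iso e₂, hχ]
      rw [char_iso e₃] at h1
      exact add_left_cancel h1
    -- dimensions
    have hlt : finrank k S' < n := by
      have h1 : finrank k S + finrank k S' = finrank k V :=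
        Submodule.finrank_add_eq_of_isCompl hSS'
      have h2 : 0 < finrank k S := by
        rw [Module.finrank_pos_iff]
        exact Submodule.nontrivial_iff_ne_bot.mpr hS0
      omega
    obtain ⟨e₄⟩ := ih _ hlt ρS' σT' rfl hχ'
    exact ⟨e₁.symm.trans ((prodCongr e₃ e₄).trans e₂)⟩

/-- **Characters determine representations in characteristic zero.** -/
theorem nonempty_equiv_of_character_eq {V : Type u} {W : Type v} [AddCommGroup V] [Module k V]
    [FiniteDimensional k V] [AddCommGroup W] [Module k W] [FiniteDimensional k W]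
    (ρ : Representation k G V) (σ : Representation k G W) (h : ρ.character = σ.character) :
    Nonempty (ρ.Equiv σ) :=
  nonempty_equiv_of_character_eq_aux _ ρ σ rfl h

end Main

section Perm

variable {k G X Y : Type*} [Field k] [Group G] [MulAction G X] [Finite X] [MulAction G Y]
  [Finite Y]

/-- **The character of a permutation representation counts fixed points.** -/
theorem character_ofMulAction (g : G) :
    (ofMulAction k G X).character g = (Nat.card (MulAction.fixedBy X g) : k) := by
  classical
  haveI : Fintype X := Fintype.ofFinite X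
  unfold character
  rw [LinearMap.trace_eq_matrix_trace k (MonoidAlgebra.basis X k)]
  unfold Matrix.trace
  have hdiag : ∀ x : X, Matrix.diag (LinearMap.toMatrix (MonoidAlgebra.basis X k)
      (MonoidAlgebra.basis X k) (ofMulAction k G X g)) x = if g • x = x then 1 else 0 := by
    intro x
    rw [Matrix.diag_apply, LinearMap.toMatrix_apply, MonoidAlgebra.basis_apply,
      ofMulAction_single]
    simp [MonoidAlgebra.basis, Finsupp.single_apply]
  simp_rw [hdiag]
  rw [Finset.sum_ite, Finset.sum_const_zero, add_zero, Finset.sum_const, nsmul_eq_mul, mul_one]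
  congr 1
  rw [Nat.card_eq_fintype_card, Fintype.card_subtype]
  rfl

/-- **Permutation representations with the same fixed-point counts are isomorphic in characteristic
zero.** -/
theorem exists_equiv_of_fixedBy_eq [CharZero k] [Finite G]
    (h : ∀ g : G, Nat.card (MulAction.fixedBy X g) = Nat.card (MulAction.fixedBy Y g)) :
    Nonempty ((ofMulAction k G X).Equiv (ofMulAction k G Y)) := by
  refine nonempty_equiv_of_character_eq _ _ ?_
  ext g
  rw [character_ofMulAction, character_ofMulAction, h g]

end Perm

section Identity

variable {G : Type} [Group G] [Finite G]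

/-- the permutation character of `G ⧸ D` -/
def permChar (D : Subgroup G) (g : G) : ℤ := (Nat.card (MulAction.fixedBy (G ⧸ D) g) : ℤ)

/-- the number of `x` with `⟨x⁻¹ g x⟩ = C` -/
def genCount (C : Subgroup G) (g : G) : ℤ :=
  (Nat.card {x : G // Subgroup.zpowers (x⁻¹ * g * x) = C} : ℤ)

/-- `|D| · π_D (g) = #{x | x⁻¹ g x ∈ D}` -/
theorem card_mul_permChar (D : Subgroup G) (g : G) :
    (Nat.card D : ℤ) * permChar D g = (Nat.card {x : G // x⁻¹ * g * x ∈ D} : ℤ) := by
  unfold permChar
  rw [← Nat.cast_mul, ← QuotientGroup.card_preimage_mk D (MulAction.fixedBy (G ⧸ D) g)]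
  congr 1
  refine Nat.card_congr (Equiv.subtypeEquivRight fun x => ?_)
  rw [Set.mem_preimage, MulAction.mem_fixedBy, MulAction.Quotient.smul_mk, eq_comm,
    QuotientGroup.eq, smul_eq_mul, mul_assoc]

/-- `#{x | x⁻¹ g x ∈ C} = Σ_{D ≤ C} Θ_D (g)` -/
theorem card_conj_mem_eq_sum (C : Subgroup G) (g : G) [Fintype (Subgroup G)]
    [DecidablePred fun D : Subgroup G => D ≤ C] :
    (Nat.card {x : G // x⁻¹ * g * x ∈ C} : ℤ) =
      ∑ D ∈ Finset.univ.filter (fun D : Subgroup G => D ≤ C), genCount D g := by
  classical
  haveI : Fintype G := Fintype.ofFinite G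
  unfold genCount
  simp_rw [Nat.card_eq_fintype_card, Fintype.card_subtype]
  rw [← Nat.cast_sum]
  congr 1
  rw [← Finset.card_biUnion]
  · congr 1
    ext x
    simp only [Finset.mem_filter, Finset.mem_univ, true_and, Finset.mem_biUnion]
    constructor
    · intro hx
      exact ⟨_, (Subgroup.zpowers_le.mpr hx), rfl⟩
    · rintro ⟨D, hD, rfl⟩
      exact hD (Subgroup.mem_zpowers _)
  · intro D _ D' _ hne
    rw [Function.onFun, Finset.disjoint_left]
    intro x hx hx'
    simp only [Finset.mem_filter, Finset.mem_univ, true_and] at hx hx'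
    exact hne (hx.symm.trans hx')

/-- `Σ_C Θ_C (g) = |G|` -/
theorem sum_genCount (g : G) [Fintype (Subgroup G)] :
    ∑ C : Subgroup G, genCount C g = (Nat.card G : ℤ) := by
  classical
  have h := card_conj_mem_eq_sum (⊤ : Subgroup G) g
  simp only [le_top, Finset.filter_true] at h
  rw [← h]
  congr 1
  exact Nat.card_congr (Equiv.subtypeUnivEquiv fun x => Subgroup.mem_top _)

/-- `Θ_C = 0` unless `C` is cyclic -/
theorem genCount_eq_zero_of_not_isCyclic {C : Subgroup G} (hC : ¬ IsCyclic C) (g : G) :
    genCount C g = 0 := by
  unfold genCount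
  rw [Nat.cast_eq_zero]
  haveI : IsEmpty {x : G // Subgroup.zpowers (x⁻¹ * g * x) = C} := by
    refine ⟨fun ⟨x, hx⟩ => hC ?_⟩
    rw [← hx]
    infer_instance
  exact Nat.card_of_isEmpty

/-- the `ℤ`-span of the permutation characters of the cyclic subgroups -/
def cyclicSpan (G : Type) [Group G] : AddSubgroup (G → ℤ) :=
  AddSubgroup.closure {F | ∃ D : Subgroup G, IsCyclic D ∧ F = permChar D}

/-- every `Θ_C` is an integral combination of permutation characters of cyclic subgroups -/
theorem genCount_mem_cyclicSpan (C : Subgroup G) : genCount C ∈ cyclicSpan G := by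
  classical
  haveI : Fintype (Subgroup G) := Fintype.ofFinite _
  induction C using WellFoundedLT.induction with
  | ind C ih =>
  by_cases hC : IsCyclic C
  · have key : genCount C = (Nat.card C : ℤ) • permChar C -
        ∑ D ∈ Finset.univ.filter (fun D : Subgroup G => D < C), genCount D := by
      funext g
      have h1 := card_mul_permChar C g
      rw [card_conj_mem_eq_sum C g] at h1
      have h2 : Finset.univ.filter (fun D : Subgroup G => D ≤ C) =
          insert C (Finset.univ.filter (fun D : Subgroup G => D < C)) := by
        ext D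
        simp only [Finset.mem_filter, Finset.mem_univ, true_and, Finset.mem_insert]
        exact le_iff_eq_or_lt
      rw [h2, Finset.sum_insert (by simp)] at h1
      simp only [Pi.sub_apply, Pi.smul_apply, smul_eq_mul, Finset.sum_apply]
      linarith
    rw [key]
    refine (cyclicSpan G).sub_mem ((cyclicSpan G).zsmul_mem
      (AddSubgroup.subset_closure ⟨C, hC, rfl⟩) _) ((cyclicSpan G).sum_mem fun D hD => ih D ?_)
    exact (Finset.mem_filter.mp hD).2
  · have : genCount C = 0 := funext fun g => genCount_eq_zero_of_not_isCyclic hC g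
    rw [this]
    exact (cyclicSpan G).zero_mem

/-- the constant function `|G|` is an integral combination of permutation characters of cyclic
subgroups -/
theorem const_card_mem_cyclicSpan : (fun _ : G => (Nat.card G : ℤ)) ∈ cyclicSpan G := by
  classical
  haveI : Fintype (Subgroup G) := Fintype.ofFinite _
  have : (fun _ : G => (Nat.card G : ℤ)) = ∑ C : Subgroup G, genCount C := by
    funext g
    rw [Finset.sum_apply, sum_genCount]
  rw [this]
  exact (cyclicSpan G).sum_mem fun C _ => genCount_mem_cyclicSpan C

/-- unfolding an element of the span into two finite families -/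
theorem exists_families_of_mem_cyclicSpan {F : G → ℤ} (hF : F ∈ cyclicSpan G) :
    ∃ (ι κ : Type) (_ : Fintype ι) (_ : Fintype κ) (C : ι → Subgroup G) (D : κ → Subgroup G),
      (∀ i, IsCyclic (C i)) ∧ (∀ j, IsCyclic (D j)) ∧
      ∀ g : G, F g + ∑ i, permChar (C i) g = ∑ j, permChar (D j) g := by
  unfold cyclicSpan at hF
  induction hF using AddSubgroup.closure_induction with
  | mem F hF =>
    obtain ⟨D, hD, rfl⟩ := hF
    exact ⟨Empty, Unit, inferInstance, inferInstance, Empty.elim, fun _ => D,
      fun i => i.elim, fun _ => hD, fun g => by simp⟩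
  | zero =>
    exact ⟨Empty, Empty, inferInstance, inferInstance, Empty.elim, Empty.elim,
      fun i => i.elim, fun i => i.elim, fun g => by simp⟩
  | add F₁ F₂ _ _ h₁ h₂ =>
    obtain ⟨ι₁, κ₁, _, _, C₁, D₁, hC₁, hD₁, e₁⟩ := h₁
    obtain ⟨ι₂, κ₂, _, _, C₂, D₂, hC₂, hD₂, e₂⟩ := h₂
    refine ⟨ι₁ ⊕ ι₂, κ₁ ⊕ κ₂, inferInstance, inferInstance, Sum.elim C₁ C₂, Sum.elim D₁ D₂,
      ?_, ?_, fun g => ?_⟩
    · rintro (i | i)
      · exact hC₁ i
      · exact hC₂ i
    · rintro (j | j)
      · exact hD₁ j
      · exact hD₂ j
    · simp only [Fintype.sum_sum_type, Sum.elim_inl, Sum.elim_inr, Pi.add_apply]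
      have := e₁ g
      have := e₂ g
      linarith
  | neg F _ h =>
    obtain ⟨ι, κ, _, _, C, D, hC, hD, e⟩ := h
    refine ⟨κ, ι, inferInstance, inferInstance, D, C, hD, hC, fun g => ?_⟩
    have := e g
    simp only [Pi.neg_apply]
    linarith

/-- **Artin's identity** (in the form without Möbius function): `|G| + Σ_i π_{C_i} = Σ_j π_{D_j}`
for two finite families of cyclic subgroups, `π_D (g) = #(G ⧸ D)^g`. -/
theorem exists_artin (G : Type) [Group G] [Finite G] :
    ∃ (ι κ : Type) (_ : Fintype ι) (_ : Fintype κ) (C : ι → Subgroup G) (D : κ → Subgroup G),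
      (∀ i, IsCyclic (C i)) ∧ (∀ j, IsCyclic (D j)) ∧
      ∀ g : G, (Nat.card G : ℤ) + ∑ i, (Nat.card (MulAction.fixedBy (G ⧸ C i) g) : ℤ) =
        ∑ j, (Nat.card (MulAction.fixedBy (G ⧸ D j) g) : ℤ) :=
  exists_families_of_mem_cyclicSpan const_card_mem_cyclicSpan

end Identity

end Fermat.Agent.S56.GEC.Induction.Artin
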