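/-
S56 / GEC / D2b support (helper4): "rational isomorphism ⇒ integral map".

* `exists_map_of_linearEquiv` / `exists_map_of_equiv`: `G`-lattices `L₁ ⊂ V₁`, `L₂ ⊂ V₂` in rational
  representations, `V₁ ≃ V₂` equivariantly ⇒ equivariant injective `L₁ → L₂` with finite cokernel.
* `exists_map_of_trace_eq`: two finitely generated free `ℤ`-modules with actions of a finite group
  and equal characters admit such a map (via `Artin.nonempty_equiv_of_character_eq`).
* `exists_map_of_fixedBy_eq`, `exists_asModule_map_of_fixedBy_eq`: permutation lattices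
  `ℤ[X] → ℤ[Y]` for finite `G`-sets with the same fixed point counts.
* `card_fixedBy_sigma`, `exists_artin_map`: Artin's induction theorem in lattice form.
-/
import Mathlib
import Fermat.Agent.S56.GEC.Induction.Artin

set_option autoImplicit false
set_option linter.unusedSectionVars false
set_option linter.style.haveILetI false

noncomputable section

namespace Fermat.Agent.S56.GEC.Induction.LatticeMap

open Representation

section General

variable {L V : Type*} [AddCommGroup L] [AddCommGroup V] [Module ℚ V]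

/-- an element of the `ℚ`-span of the image of an additive map has a positive multiple in the
image -/
theorem exists_nsmul_mem_range (ι : L →ₗ[ℤ] V) {v : V}
    (hv : v ∈ Submodule.span ℚ (Set.range ι)) : ∃ n : ℕ, 0 < n ∧ ∃ y : L, ι y = n • v := by
  induction hv using Submodule.span_induction with
  | mem v hv =>
    obtain ⟨y, rfl⟩ := hv
    exact ⟨1, one_pos, y, by simp⟩
  | zero => exact ⟨1, one_pos, 0, by simp⟩
  | add v w _ _ hv hw =>
    obtain ⟨n, hn, y, hy⟩ := hv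
    obtain ⟨m, hm, z, hz⟩ := hw
    refine ⟨n * m, Nat.mul_pos hn hm, m • y + n • z, ?_⟩
    rw [map_add, map_nsmul, map_nsmul, hy, hz, smul_add, smul_smul, smul_smul, mul_comm m n]
  | smul q v _ hv =>
    obtain ⟨n, hn, y, hy⟩ := hv
    refine ⟨n * q.den, Nat.mul_pos hn q.den_pos, q.num • y, ?_⟩
    rw [map_zsmul, hy]
    have hq : ((q.den : ℕ) : ℚ) * q = (q.num : ℚ) := by
      rw [mul_comm]; exact Rat.mul_den_eq_num q
    rw [← Nat.cast_smul_eq_nsmul ℚ (n * q.den), ← Nat.cast_smul_eq_nsmul ℚ n,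
      ← Int.cast_smul_eq_zsmul ℚ q.num, smul_smul, smul_smul]
    congr 1
    push_cast
    rw [← hq]
    ring

/-- a finitely generated subgroup of the `ℚ`-span of the image of `ι` has a common denominator -/
theorem exists_nsmul_forall_mem_range {L' : Type*} [AddCommGroup L'] [Module.Finite ℤ L']
    (ι : L →ₗ[ℤ] V) (f : L' →ₗ[ℤ] V)
    (hf : ∀ x, f x ∈ Submodule.span ℚ (Set.range ι)) :
    ∃ N : ℕ, 0 < N ∧ ∀ x : L', ∃ y : L, ι y = N • f x := by
  classical
  obtain ⟨S, hS⟩ := (Module.Finite.fg_top : (⊤ : Submodule ℤ L').FG)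
  choose n hn y hy using fun x : L' => exists_nsmul_mem_range ι (hf x)
  refine ⟨∏ s ∈ S, n s, Finset.prod_pos fun s _ => hn s, fun x => ?_⟩
  have hx : x ∈ Submodule.span ℤ (S : Set L') := by rw [hS]; trivial
  induction hx using Submodule.span_induction with
  | mem s hs =>
    refine ⟨(∏ t ∈ S.erase s, n t) • y s, ?_⟩
    rw [map_nsmul, hy, smul_smul, Finset.prod_erase_mul S n hs]
  | zero => exact ⟨0, by simp⟩
  | add v w _ _ hv hw =>
    obtain ⟨a, ha⟩ := hv
    obtain ⟨b, hb⟩ := hw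
    exact ⟨a + b, by rw [map_add, map_add, ha, hb, smul_add]⟩
  | smul c v _ hv =>
    obtain ⟨a, ha⟩ := hv
    exact ⟨c • a, by rw [map_zsmul, map_zsmul, ha, smul_comm]⟩

end General

section Main

variable {G : Type*} [Group G]
variable {L₁ L₂ V₁ V₂ : Type*} [AddCommGroup L₁] [AddCommGroup L₂] [AddCommGroup V₁]
  [AddCommGroup V₂] [Module ℚ V₁] [Module ℚ V₂] [Module.Finite ℤ L₁] [Module.Finite ℤ L₂]

/-- **Rational isomorphism ⇒ integral map.**  Let `L₁ ⊂ V₁`, `L₂ ⊂ V₂` be finitely generated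
`G`-stable subgroups of rational representations which span them.  If `V₁ ≃ V₂` equivariantly,
there is an equivariant injective map `L₁ → L₂` with finite cokernel. -/
theorem exists_map_of_linearEquiv (ρ₁ : Representation ℤ G L₁) (ρ₂ : Representation ℤ G L₂)
    (σ₁ : Representation ℚ G V₁) (σ₂ : Representation ℚ G V₂)
    (ι₁ : L₁ →ₗ[ℤ] V₁) (ι₂ : L₂ →ₗ[ℤ] V₂)
    (hι₁ : ∀ g x, ι₁ (ρ₁ g x) = σ₁ g (ι₁ x)) (hι₂ : ∀ g x, ι₂ (ρ₂ g x) = σ₂ g (ι₂ x))
    (hinj₁ : Function.Injective ι₁) (hinj₂ : Function.Injective ι₂)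
    (hspan₁ : Submodule.span ℚ (Set.range ι₁) = ⊤) (hspan₂ : Submodule.span ℚ (Set.range ι₂) = ⊤)
    (e : V₁ ≃ₗ[ℚ] V₂) (he : ∀ g v, e (σ₁ g v) = σ₂ g (e v)) :
    ∃ ψ : L₁ →ₗ[ℤ] L₂, (∀ g x, ψ (ρ₁ g x) = ρ₂ g (ψ x)) ∧ Function.Injective ψ ∧
      Finite (L₂ ⧸ LinearMap.range ψ) := by
  classical
  -- the rational map `L₁ → V₂`
  let f : L₁ →ₗ[ℤ] V₂ := (e.toLinearMap.restrictScalars ℤ).comp ι₁
  have hf : ∀ x, f x = e (ι₁ x) := fun _ => rfl
  obtain ⟨N, hN, hNf⟩ := exists_nsmul_forall_mem_range ι₂ f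
    (fun x => by rw [hspan₂]; trivial)
  have hmem : ∀ x, ((N : ℤ) • f) x ∈ LinearMap.range ι₂ := by
    intro x
    obtain ⟨y, hy⟩ := hNf x
    exact ⟨y, by rw [hy, LinearMap.smul_apply, natCast_zsmul]⟩
  let ψ : L₁ →ₗ[ℤ] L₂ :=
    ((LinearEquiv.ofInjective ι₂ hinj₂).symm.toLinearMap).comp
      (((N : ℤ) • f).codRestrict (LinearMap.range ι₂) hmem)
  have hψ : ∀ x, ι₂ (ψ x) = N • e (ι₁ x) := by
    intro x
    have h1 : ι₂ (ψ x) = ((LinearEquiv.ofInjective ι₂ hinj₂)
        ((LinearEquiv.ofInjective ι₂ hinj₂).symm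
          ((((N : ℤ) • f).codRestrict (LinearMap.range ι₂) hmem) x)) : V₂) := rfl
    rw [h1, LinearEquiv.apply_symm_apply, LinearMap.codRestrict_apply, LinearMap.smul_apply,
      natCast_zsmul, hf]
  have hN0 : (N : ℚ) ≠ 0 := by exact_mod_cast hN.ne'
  refine ⟨ψ, fun g x => ?_, ?_, ?_⟩
  · apply hinj₂
    rw [hψ, hι₁, he, hι₂, hψ, map_nsmul]
  · rw [injective_iff_map_eq_zero]
    intro x hx
    have h1 : N • e (ι₁ x) = 0 := by rw [← hψ, hx, map_zero]
    rw [← Nat.cast_smul_eq_nsmul ℚ, smul_eq_zero] at h1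
    rcases h1 with h1 | h1
    · exact absurd h1 hN0
    · rw [EmbeddingLike.map_eq_zero_iff] at h1
      exact (injective_iff_map_eq_zero ι₁).mp hinj₁ x h1
  · -- finite cokernel: finitely generated and torsion
    haveI : Module.Finite ℤ (L₂ ⧸ LinearMap.range ψ) := inferInstance
    refine Module.finite_of_fg_torsion _ ?_
    intro q
    obtain ⟨y, rfl⟩ := Submodule.Quotient.mk_surjective _ q
    obtain ⟨m, hm, x, hx⟩ := exists_nsmul_mem_range ι₁
      (v := e.symm (ι₂ y)) (by rw [hspan₁]; trivial)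
    have hNm : (N * m : ℕ) ≠ 0 := Nat.mul_ne_zero hN.ne' hm.ne'
    refine ⟨⟨((N * m : ℕ) : ℤ), ?_⟩, ?_⟩
    · rw [mem_nonZeroDivisors_iff_ne_zero]
      exact_mod_cast hNm
    · show ((N * m : ℕ) : ℤ) • (Submodule.Quotient.mk y : L₂ ⧸ LinearMap.range ψ) = 0
      rw [← Submodule.Quotient.mk_smul, Submodule.Quotient.mk_eq_zero]
      refine ⟨x, hinj₂ ?_⟩
      rw [hψ, hx, map_nsmul, LinearEquiv.apply_symm_apply, smul_smul, natCast_zsmul, map_nsmul]

/-- version of `exists_map_of_linearEquiv` for a `Representation.Equiv` -/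
theorem exists_map_of_equiv (ρ₁ : Representation ℤ G L₁) (ρ₂ : Representation ℤ G L₂)
    (σ₁ : Representation ℚ G V₁) (σ₂ : Representation ℚ G V₂)
    (ι₁ : L₁ →ₗ[ℤ] V₁) (ι₂ : L₂ →ₗ[ℤ] V₂)
    (hι₁ : ∀ g x, ι₁ (ρ₁ g x) = σ₁ g (ι₁ x)) (hι₂ : ∀ g x, ι₂ (ρ₂ g x) = σ₂ g (ι₂ x))
    (hinj₁ : Function.Injective ι₁) (hinj₂ : Function.Injective ι₂)
    (hspan₁ : Submodule.span ℚ (Set.range ι₁) = ⊤) (hspan₂ : Submodule.span ℚ (Set.range ι₂) = ⊤)
    (e : σ₁.Equiv σ₂) :
    ∃ ψ : L₁ →ₗ[ℤ] L₂, (∀ g x, ψ (ρ₁ g x) = ρ₂ g (ψ x)) ∧ Function.Injective ψ ∧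
      Finite (L₂ ⧸ LinearMap.range ψ) :=
  exists_map_of_linearEquiv ρ₁ ρ₂ σ₁ σ₂ ι₁ ι₂ hι₁ hι₂ hinj₁ hinj₂ hspan₁ hspan₂ e.toLinearEquiv
    (fun g v => IntertwiningMap.isIntertwining σ₁ σ₂ e.toIntertwiningMap g v)

end Main

section Rat

variable {G : Type*} [Group G] {L : Type*} [AddCommGroup L]

/-- the rational representation `ℚ ⊗ L` attached to an integral representation `L` -/
def ratRep (ρ : Representation ℤ G L) : Representation ℚ G (TensorProduct ℤ ℚ L) where
  toFun g := (ρ g).baseChange ℚ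
  map_one' := by rw [map_one]; exact LinearMap.baseChange_one ℤ L
  map_mul' g h := by rw [map_mul]; exact LinearMap.baseChange_mul _ _

theorem ratRep_tmul (ρ : Representation ℤ G L) (g : G) (a : ℚ) (x : L) :
    ratRep ρ g (a ⊗ₜ[ℤ] x) = a ⊗ₜ[ℤ] ρ g x :=
  LinearMap.baseChange_tmul _ _ _

/-- the lattice `L → ℚ ⊗ L` -/
def ratIncl (L : Type*) [AddCommGroup L] : L →ₗ[ℤ] TensorProduct ℤ ℚ L :=
  TensorProduct.mk ℤ ℚ L 1

theorem ratIncl_apply (x : L) : ratIncl L x = (1 : ℚ) ⊗ₜ[ℤ] x := rfl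

theorem ratIncl_equivariant (ρ : Representation ℤ G L) (g : G) (x : L) :
    ratIncl L (ρ g x) = ratRep ρ g (ratIncl L x) := by
  rw [ratIncl_apply, ratIncl_apply, ratRep_tmul]

theorem ratIncl_injective [Module.Free ℤ L] : Function.Injective (ratIncl L) := by
  rw [injective_iff_map_eq_zero]
  intro x hx
  let b := Module.Free.chooseBasis ℤ L
  have h1 : (Algebra.TensorProduct.basis ℚ b).repr ((1 : ℚ) ⊗ₜ[ℤ] x) = 0 := by
    rw [← ratIncl_apply, hx, map_zero]
  rw [Algebra.TensorProduct.basis_repr_tmul, one_smul] at h1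
  have h2 : b.repr x = 0 := by
    ext i
    have h3 := DFunLike.congr_fun h1 i
    rw [Finsupp.mapRange_apply, Finsupp.zero_apply] at h3
    rw [Finsupp.zero_apply]
    exact (FaithfulSMul.algebraMap_injective ℤ ℚ) (by rw [h3, map_zero])
  exact b.repr.map_eq_zero_iff.mp h2

theorem span_range_ratIncl : Submodule.span ℚ (Set.range (ratIncl L)) = ⊤ := by
  rw [eq_top_iff]
  intro t ht0
  clear ht0
  induction t using TensorProduct.induction_on with
  | zero => exact Submodule.zero_mem _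
  | tmul a x =>
    have h1 : a ⊗ₜ[ℤ] x = a • ((1 : ℚ) ⊗ₜ[ℤ] x) := by
      rw [TensorProduct.smul_tmul', smul_eq_mul, mul_one]
    rw [h1]
    exact Submodule.smul_mem _ _ (Submodule.subset_span ⟨x, rfl⟩)
  | add t u ht hu => exact Submodule.add_mem _ ht hu

theorem character_ratRep [Module.Free ℤ L] [Module.Finite ℤ L] (ρ : Representation ℤ G L) (g : G) :
    (ratRep ρ).character g = ((LinearMap.trace ℤ L (ρ g) : ℤ) : ℚ) := by
  unfold character
  exact LinearMap.trace_baseChange (ρ g) ℚ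

/-- **Equal characters ⇒ integral map.**  Two finitely generated free `ℤ`-modules with actions of
a finite group `G` having the same character admit an equivariant injective map with finite
cokernel. -/
theorem exists_map_of_trace_eq [Finite G] {L₁ L₂ : Type*} [AddCommGroup L₁] [AddCommGroup L₂]
    [Module.Free ℤ L₁] [Module.Finite ℤ L₁] [Module.Free ℤ L₂] [Module.Finite ℤ L₂]
    (ρ₁ : Representation ℤ G L₁) (ρ₂ : Representation ℤ G L₂)
    (h : ∀ g, LinearMap.trace ℤ L₁ (ρ₁ g) = LinearMap.trace ℤ L₂ (ρ₂ g)) :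
    ∃ ψ : L₁ →ₗ[ℤ] L₂, (∀ g x, ψ (ρ₁ g x) = ρ₂ g (ψ x)) ∧ Function.Injective ψ ∧
      Finite (L₂ ⧸ LinearMap.range ψ) := by
  obtain ⟨e⟩ := Artin.nonempty_equiv_of_character_eq (ratRep ρ₁) (ratRep ρ₂) (by
    ext g
    rw [character_ratRep, character_ratRep, h g])
  exact exists_map_of_equiv ρ₁ ρ₂ (ratRep ρ₁) (ratRep ρ₂) (ratIncl L₁) (ratIncl L₂)
    (ratIncl_equivariant ρ₁) (ratIncl_equivariant ρ₂) ratIncl_injective ratIncl_injective
    span_range_ratIncl span_range_ratIncl e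

end Rat

section Perm

variable {G : Type*} [Group G] {X Y : Type*} [MulAction G X] [MulAction G Y] [Finite X] [Finite Y]

/-- the trace of a permutation matrix counts fixed points (over any commutative ring) -/
theorem trace_ofMulAction (k : Type*) [CommRing k] (g : G) :
    LinearMap.trace k (MonoidAlgebra k X) (ofMulAction k G X g) =
      (Nat.card (MulAction.fixedBy X g) : k) := by
  classical
  haveI : Fintype X := Fintype.ofFinite X
  rw [LinearMap.trace_eq_matrix_trace k (MonoidAlgebra.basis X k)]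
  unfold Matrix.trace
  have hdiag : ∀ x : X, Matrix.diag (LinearMap.toMatrix (MonoidAlgebra.basis X k)
      (MonoidAlgebra.basis X k) (ofMulAction k G X g)) x = if g • x = x then 1 else 0 := by
    intro x
    rw [Matrix.diag_apply, LinearMap.toMatrix_apply, MonoidAlgebra.basis_apply,
      ofMulAction_single]
    simp [MonoidAlgebra.basis, Finsupp.single_apply]
  simp_rw [hdiag]
  rw [Finset.sum_ite, Finset.sum_const_zero, add_zero, Finset.sum_const, nsmul_eq_mul, mul_one]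
  congr 1
  rw [Nat.card_eq_fintype_card, Fintype.card_subtype]
  rfl

/-- **Permutation lattices with the same fixed-point counts**: there is an equivariant injective
map `ℤ[X] → ℤ[Y]` with finite cokernel. -/
theorem exists_map_of_fixedBy_eq [Finite G]
    (h : ∀ g : G, Nat.card (MulAction.fixedBy X g) = Nat.card (MulAction.fixedBy Y g)) :
    ∃ ψ : MonoidAlgebra ℤ X →ₗ[ℤ] MonoidAlgebra ℤ Y,
      (∀ g x, ψ (ofMulAction ℤ G X g x) = ofMulAction ℤ G Y g (ψ x)) ∧ Function.Injective ψ ∧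
      Finite (MonoidAlgebra ℤ Y ⧸ LinearMap.range ψ) := by
  haveI : Module.Free ℤ (MonoidAlgebra ℤ X) := Module.Free.of_basis (MonoidAlgebra.basis X ℤ)
  haveI : Module.Free ℤ (MonoidAlgebra ℤ Y) := Module.Free.of_basis (MonoidAlgebra.basis Y ℤ)
  refine exists_map_of_trace_eq (ofMulAction ℤ G X) (ofMulAction ℤ G Y) fun g => ?_
  rw [trace_ofMulAction, trace_ofMulAction, h g]

/-- the same statement for the `ℤ[G]`-modules `(ofMulAction ℤ G X).asModule` -/
theorem exists_asModule_map_of_fixedBy_eq [Finite G]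
    (h : ∀ g : G, Nat.card (MulAction.fixedBy X g) = Nat.card (MulAction.fixedBy Y g)) :
    ∃ u : (ofMulAction ℤ G X).asModule →ₗ[MonoidAlgebra ℤ G] (ofMulAction ℤ G Y).asModule,
      Function.Injective u ∧ Finite ((ofMulAction ℤ G Y).asModule ⧸ LinearMap.range u) := by
  obtain ⟨ψ, hψ, hinj, hfin⟩ := exists_map_of_fixedBy_eq (G := G) (X := X) (Y := Y) h
  let Ψ : IntertwiningMap (ofMulAction ℤ G X) (ofMulAction ℤ G Y) :=
    ⟨ψ, fun g => LinearMap.ext fun x => hψ g x⟩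
  let u := IntertwiningMap.equivLinearMapAsModule _ _ Ψ
  have hu : ∀ x, u x = ψ x := fun _ => rfl
  refine ⟨u, fun a b hab => hinj (by rw [← hu, ← hu]; exact hab), ?_⟩
  let eY := (ofMulAction ℤ G Y).asModuleEquiv
  let eX := (ofMulAction ℤ G X).asModuleEquiv
  have hu' : ∀ x, u (eX.symm x) = eY.symm (ψ x) := fun _ => rfl
  let f : (MonoidAlgebra ℤ Y ⧸ LinearMap.range ψ) →
      ((ofMulAction ℤ G Y).asModule ⧸ LinearMap.range u) :=
    Quotient.map' (fun y => eY.symm y) (by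
      intro a b hab
      have hab' : a - b ∈ LinearMap.range ψ := (Submodule.quotientRel_def _).mp hab
      refine (Submodule.quotientRel_def _).mpr ?_
      obtain ⟨x, hx⟩ := hab'
      exact ⟨eX.symm x, by rw [hu', hx, map_sub]⟩)
  refine Finite.of_surjective f ?_
  intro q
  obtain ⟨y, rfl⟩ := Submodule.Quotient.mk_surjective _ q
  exact ⟨Submodule.Quotient.mk (eY y), by
    show Submodule.Quotient.mk (eY.symm (eY y)) = _
    rw [LinearEquiv.symm_apply_apply]⟩

end Perm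

section Sigma

variable {G : Type*} [Group G] {ι : Type*} {X : ι → Type*} [∀ i, MulAction G (X i)]

/-- fixed points of a disjoint union -/
def fixedBySigmaEquiv (g : G) :
    MulAction.fixedBy (Σ i, X i) g ≃ Σ i, MulAction.fixedBy (X i) g where
  toFun x := ⟨x.1.1, ⟨x.1.2, by
    have h := x.2
    rw [MulAction.mem_fixedBy] at h ⊢
    have h2 : (⟨x.1.1, g • x.1.2⟩ : Σ i, X i) = ⟨x.1.1, x.1.2⟩ := h
    exact eq_of_heq (Sigma.mk.inj h2).2⟩⟩
  invFun y := ⟨⟨y.1, y.2.1⟩, by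
    have h := y.2.2
    rw [MulAction.mem_fixedBy] at h ⊢
    show (⟨y.1, g • y.2.1⟩ : Σ i, X i) = ⟨y.1, y.2.1⟩
    rw [h]⟩
  left_inv x := rfl
  right_inv y := rfl

theorem card_fixedBy_sigma [Fintype ι] [∀ i, Finite (X i)] (g : G) :
    Nat.card (MulAction.fixedBy (Σ i, X i) g) = ∑ i, Nat.card (MulAction.fixedBy (X i) g) := by
  rw [Nat.card_congr (fixedBySigmaEquiv g), Nat.card_sigma]

end Sigma

section ArtinMap

/-- **Artin's induction theorem, lattice form.**  For a finite group `G` there are finite families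
of cyclic subgroups `C i`, `D j` and an injective `ℤ[G]`-linear map with finite cokernel
`ℤ[pt]^{|G|} ⊕ ⨁ᵢ ℤ[G/Cᵢ] → ⨁ⱼ ℤ[G/Dⱼ]`.  (The summands `pt = G ⧸ ⊤` are indexed by
`Fin (Nat.card G)`.) -/
theorem exists_artin_map (G : Type) [Group G] [Finite G] :
    ∃ (ι κ : Type) (_ : Fintype ι) (_ : Fintype κ) (C : ι → Subgroup G) (D : κ → Subgroup G),
      (∀ i, IsCyclic (C i)) ∧ (∀ j, IsCyclic (D j)) ∧
      ∃ u : (ofMulAction ℤ G (Σ i : Fin (Nat.card G) ⊕ ι,
            G ⧸ (Sum.elim (fun _ => (⊤ : Subgroup G)) C i))).asModule →ₗ[MonoidAlgebra ℤ G]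
          (ofMulAction ℤ G (Σ j, G ⧸ D j)).asModule,
        Function.Injective u ∧
          Finite ((ofMulAction ℤ G (Σ j, G ⧸ D j)).asModule ⧸ LinearMap.range u) := by
  classical
  obtain ⟨ι, κ, hι, hκ, C, D, hC, hD, h⟩ := Artin.exists_artin G
  refine ⟨ι, κ, hι, hκ, C, D, hC, hD, ?_⟩
  haveI : Fintype G := Fintype.ofFinite G
  haveI : ∀ i : Fin (Nat.card G) ⊕ ι, Finite (G ⧸ (Sum.elim (fun _ => (⊤ : Subgroup G)) C i)) :=
    fun i => inferInstance
  refine exists_asModule_map_of_fixedBy_eq (G := G) fun g => ?_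
  have h1 := h g
  rw [card_fixedBy_sigma, card_fixedBy_sigma, Fintype.sum_sum_type]
  show (∑ _a : Fin (Nat.card G), Nat.card (MulAction.fixedBy (G ⧸ (⊤ : Subgroup G)) g)) +
    ∑ i : ι, Nat.card (MulAction.fixedBy (G ⧸ C i) g) =
      ∑ j, Nat.card (MulAction.fixedBy (G ⧸ D j) g)
  have h2 : Nat.card (MulAction.fixedBy (G ⧸ (⊤ : Subgroup G)) g) = 1 := by
    haveI : Subsingleton (G ⧸ (⊤ : Subgroup G)) := QuotientGroup.subsingleton_quotient_top
    haveI : Nonempty (MulAction.fixedBy (G ⧸ (⊤ : Subgroup G)) g) :=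
      ⟨⟨QuotientGroup.mk 1, Subsingleton.elim _ _⟩⟩
    exact Nat.card_unique
  rw [h2, Finset.sum_const, Finset.card_univ, Fintype.card_fin, smul_eq_mul, mul_one]
  exact_mod_cast h1

end ArtinMap

end Fermat.Agent.S56.GEC.Induction.LatticeMap
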